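import Mathlib

/-!
# A generator of a rational function field is a uniformiser at its zero (prefix `cv_`)

`A` a discrete valuation ring containing a field `L`, with fraction field `K = L(x)`, `x ∈ A` a
non-unit.  Then `x` is irreducible in `A` (i.e. `x` is a uniformiser).
-/

set_option autoImplicit false

namespace Fermat.Agent.JT3

open Polynomial

section

variable {L A : Type*} [Field L] [CommRing A] [IsDomain A] [IsDiscreteValuationRing A]
  [Algebra L A]

/-- a unit plus a non-unit is a unit in a local ring. -/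
theorem cv_isUnit_add_of_nonunit {R : Type*} [CommRing R] [IsLocalRing R] {u m : R}
    (hu : IsUnit u) (hm : ¬ IsUnit m) : IsUnit (u + m) := by
  by_contra h
  have h1 : u + m ∈ IsLocalRing.maximalIdeal R := (IsLocalRing.mem_maximalIdeal _).2 h
  have h2 : m ∈ IsLocalRing.maximalIdeal R := (IsLocalRing.mem_maximalIdeal _).2 hm
  have h3 : u ∈ IsLocalRing.maximalIdeal R := by
    have := (IsLocalRing.maximalIdeal R).sub_mem h1 h2
    simpa using this
  exact (IsLocalRing.mem_maximalIdeal _).1 h3 hu

/-- the value at a non-unit `x` of a polynomial with nonzero constant coefficient is a unit. -/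
theorem cv_isUnit_aeval_of_coeff_zero_ne_zero {x : A} (hx : ¬ IsUnit x) {q : L[X]}
    (hq : q.coeff 0 ≠ 0) : IsUnit (aeval x q) := by
  have h1 : q = q.divX * X + C (q.coeff 0) := (divX_mul_X_add q).symm
  have h2 : aeval x q = algebraMap L A (q.coeff 0) + aeval x q.divX * x := by
    conv_lhs => rw [h1]
    rw [map_add, map_mul, aeval_X, aeval_C, add_comm]
  rw [h2]
  apply cv_isUnit_add_of_nonunit
  · exact (IsUnit.mk0 _ hq).map (algebraMap L A)
  · intro h
    exact hx (isUnit_of_mul_isUnit_right h)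

/-- the value at a non-unit `x` of a nonzero polynomial over `L` is a power of `x` times a
unit. -/
theorem cv_aeval_eq_pow_mul_unit {x : A} (hx : ¬ IsUnit x) {p : L[X]} (hp : p ≠ 0) :
    ∃ (m : ℕ) (u : Aˣ), aeval x p = u * x ^ m := by
  obtain ⟨q, hpq, hq⟩ := exists_eq_pow_rootMultiplicity_mul_and_not_dvd p hp 0
  rw [C_0, sub_zero] at hpq hq
  have hq0 : q.coeff 0 ≠ 0 := by
    intro h
    exact hq (X_dvd_iff.2 h)
  obtain ⟨u, hu⟩ := cv_isUnit_aeval_of_coeff_zero_ne_zero hx hq0
  refine ⟨rootMultiplicity 0 p, u, ?_⟩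
  conv_lhs => rw [hpq]
  rw [map_mul, map_pow, aeval_X, hu, mul_comm]

variable {K : Type*} [Field K] [Algebra A K] [Algebra L K] [IsScalarTower L A K]
  [IsFractionRing A K]

/-- **Uniformiser lemma**: if `Frac A = L(x)` with `L ⊆ A` a field and `x ∈ A` a non-unit of the
discrete valuation ring `A`, then `x` is a uniformiser of `A`. -/
theorem cv_irreducible_of_adjoin_eq_top {x : A} (hx : ¬ IsUnit x)
    (hgen : IntermediateField.adjoin L {algebraMap A K x} = ⊤) : Irreducible x := by
  have hinj : Function.Injective (algebraMap A K) := IsFractionRing.injective A K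
  obtain ⟨ϖ, hϖ⟩ := IsDiscreteValuationRing.exists_irreducible A
  have hmem : algebraMap A K ϖ ∈ IntermediateField.adjoin L {algebraMap A K x} := by
    rw [hgen]; trivial
  obtain ⟨r, s, hrs⟩ := (IntermediateField.mem_adjoin_simple_iff L _).1 hmem
  have hϖK : algebraMap A K ϖ ≠ 0 := by
    intro h
    exact hϖ.ne_zero (hinj (by rw [h, map_zero]))
  have hs : aeval (algebraMap A K x) s ≠ 0 := by
    intro h
    rw [h, div_zero] at hrs
    exact hϖK hrs
  have hr : aeval (algebraMap A K x) r ≠ 0 := by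
    intro h
    rw [h, zero_div] at hrs
    exact hϖK hrs
  have hs0 : s ≠ 0 := by
    rintro rfl
    exact hs (map_zero _)
  have hr0 : r ≠ 0 := by
    rintro rfl
    exact hr (map_zero _)
  have hA : ϖ * aeval x s = aeval x r := by
    apply hinj
    rw [map_mul, ← aeval_algebraMap_apply, ← aeval_algebraMap_apply, hrs, div_mul_cancel₀ _ hs]
  obtain ⟨a, u₁, h1⟩ := cv_aeval_eq_pow_mul_unit hx hr0
  obtain ⟨b, u₂, h2⟩ := cv_aeval_eq_pow_mul_unit hx hs0
  have hx0 : x ≠ 0 := by
    rintro rfl
    rw [map_zero] at hr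
    -- the value at `0`
    rw [h1, h2] at hA
    rcases Nat.eq_zero_or_pos b with hb | hb
    · rcases Nat.eq_zero_or_pos a with ha | ha
      · rw [ha, hb, pow_zero, mul_one, mul_one] at hA
        have : IsUnit ϖ := by
          have h3 : IsUnit (ϖ * (u₂ : A)) := by rw [hA]; exact u₁.isUnit
          exact isUnit_of_mul_isUnit_left h3
        exact hϖ.not_isUnit this
      · rw [hb, pow_zero, mul_one, zero_pow (Nat.pos_iff_ne_zero.1 ha), mul_zero] at hA
        rcases mul_eq_zero.1 hA with h | h
        · exact hϖ.ne_zero h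
        · exact u₂.ne_zero h
    · apply hs
      rw [aeval_algebraMap_apply, h2, zero_pow (Nat.pos_iff_ne_zero.1 hb), mul_zero, map_zero]
  obtain ⟨k, u, hk⟩ := IsDiscreteValuationRing.eq_unit_mul_pow_irreducible hx0 hϖ
  rw [h1, h2, hk] at hA
  have hA' : ((u₂ * u ^ b : Aˣ) : A) * ϖ ^ (1 + k * b) = ((u₁ * u ^ a : Aˣ) : A) * ϖ ^ (k * a) := by
    push_cast
    rw [pow_add, pow_one, pow_mul, pow_mul]
    linear_combination hA
  have hkab := IsDiscreteValuationRing.unit_mul_pow_congr_pow hϖ hϖ _ _ _ _ hA'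
  have hk1 : k = 1 := by
    have h3 : k ∣ 1 := by
      have h4 : k ∣ k * a := dvd_mul_right k a
      rw [← hkab] at h4
      exact (Nat.dvd_add_left (dvd_mul_right k b)).1 h4
    exact Nat.dvd_one.1 h3
  rw [hk1, pow_one] at hk
  rw [hk]
  exact (associated_unit_mul_left ϖ (u : A) u.isUnit).symm.irreducible hϖ

end

end Fermat.Agent.JT3
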