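import Fermat.Agent.JT3.Cover.Ramification
import Fermat.Agent.JT3.Cover.Uniformiser

/-!
# Ramification of the Legendre and Hesse covers, intrinsic form (JT3 route (X); prefix `cv_`)

`L` a field, `K' = L(j')`, `A` a discrete valuation ring of `K'` containing `L`.  If `j'` (resp.
`j' - 1728`) lies in the maximal ideal of `A`, then every nonzero prime of the integral closure
of `A` in a field `E ∋ λ` with `256 (λ² - λ + 1)³ = j' λ² (λ - 1)²` has ramification index
divisible by `3` (resp. `2`); same for the Hesse relation.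

Abstract form (`A` any type with the algebra towers) and `Subring` form.
-/

set_option autoImplicit false

namespace Fermat.Agent.JT3

section Abstract

variable {L A K' E B : Type*} [Field L] [CommRing A] [IsDomain A] [IsDiscreteValuationRing A]
  [Field K'] [Field E] [Algebra L A] [Algebra A K'] [Algebra L K'] [IsScalarTower L A K']
  [IsFractionRing A K'] [Algebra A E] [Algebra K' E] [IsScalarTower A K' E]
  [CommRing B] [IsDedekindDomain B] [Algebra A B] [Algebra B E] [IsScalarTower A B E]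
  [IsIntegralClosure B A E]

omit [IsDomain A] [IsDiscreteValuationRing A] in
theorem cv_isUnit_ofNat_of_field (n : ℕ) [n.AtLeastTwo] (h : (OfNat.ofNat n : L) ≠ 0) :
    IsUnit (OfNat.ofNat n : A) := by
  have h1 : IsUnit (algebraMap L A (OfNat.ofNat n)) := (IsUnit.mk0 _ h).map _
  rwa [map_ofNat] at h1

theorem cv_algebraMap_ne_zero' {A E : Type*} (K' : Type*) [CommRing A] [Field K'] [Field E]
    [Algebra A K'] [IsDomain A] [IsFractionRing A K'] [Algebra A E] [Algebra K' E]
    [IsScalarTower A K' E] {t : A} (ht : t ≠ 0) : algebraMap A E t ≠ 0 := by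
  rw [IsScalarTower.algebraMap_apply A K' E]
  intro h
  have h1 : algebraMap A K' t = 0 := (algebraMap K' E).injective (by rw [h, map_zero])
  exact ht (IsFractionRing.injective A K' (by rw [h1, map_zero]))

/-- shifting a generator by a constant. -/
theorem cv_adjoin_sub_ofNat {K : Type*} [Field K] [Algebra L K] {x : K} (n : ℕ) [n.AtLeastTwo]
    (hgen : IntermediateField.adjoin L {x} = ⊤) :
    IntermediateField.adjoin L {x - OfNat.ofNat n} = ⊤ := by
  rw [eq_top_iff, ← hgen, IntermediateField.adjoin_simple_le_iff]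
  have h1 : x - OfNat.ofNat n ∈ IntermediateField.adjoin L {x - (OfNat.ofNat n : K)} :=
    IntermediateField.mem_adjoin_simple_self L _
  have h2 : (OfNat.ofNat n : K) ∈ IntermediateField.adjoin L {x - (OfNat.ofNat n : K)} :=
    ofNat_mem _ n
  have := add_mem h1 h2
  rwa [sub_add_cancel] at this

/-- **(C2) Legendre over `j' = 0`**, abstract form. -/
theorem cv_leg_ram_zero_gen (h2 : (2 : L) ≠ 0) {j : A} (hj : ¬ IsUnit j)
    (hgen : IntermediateField.adjoin L {algebraMap A K' j} = ⊤) {lam : E}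
    (hrel : cv_legN lam = algebraMap A E j * cv_legD lam) (P : Ideal B) [P.IsPrime]
    (hP : P ≠ ⊥) : 3 ∣ P.ramificationIdx A := by
  have hirr : Irreducible j := cv_irreducible_of_adjoin_eq_top (L := L) (K := K') hj hgen
  exact cv_leg_ram_zero' (cv_isUnit_ofNat_of_field 2 h2) hirr
    (cv_algebraMap_ne_zero' K' hirr.ne_zero) hrel P hP

/-- **(C3) Legendre over `j' = 1728`**, abstract form (`t = j' - 1728`). -/
theorem cv_leg_ram_1728_gen (h2 : (2 : L) ≠ 0) {t : A} (ht : ¬ IsUnit t)
    (hgen : IntermediateField.adjoin L {algebraMap A K' t} = ⊤) {lam : E}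
    (hrel : cv_legN lam = (algebraMap A E t + 1728) * cv_legD lam) (P : Ideal B) [P.IsPrime]
    (hP : P ≠ ⊥) : 2 ∣ P.ramificationIdx A := by
  have hirr : Irreducible t := cv_irreducible_of_adjoin_eq_top (L := L) (K := K') ht hgen
  exact cv_leg_ram_1728' (cv_isUnit_ofNat_of_field 2 h2) hirr
    (cv_algebraMap_ne_zero' K' hirr.ne_zero) hrel P hP

/-- **Hesse over `j' = 0`**, abstract form. -/
theorem cv_hes_ram_zero_gen (h3 : (3 : L) ≠ 0) {j : A} (hj : ¬ IsUnit j)
    (hgen : IntermediateField.adjoin L {algebraMap A K' j} = ⊤) {mu : E}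
    (hrel : cv_hesN mu = algebraMap A E j * cv_hesD mu) (P : Ideal B) [P.IsPrime]
    (hP : P ≠ ⊥) : 3 ∣ P.ramificationIdx A := by
  have hirr : Irreducible j := cv_irreducible_of_adjoin_eq_top (L := L) (K := K') hj hgen
  exact cv_hes_ram_zero' (cv_isUnit_ofNat_of_field 3 h3) hirr
    (cv_algebraMap_ne_zero' K' hirr.ne_zero) hrel P hP

/-- **Hesse over `j' = 1728`**, abstract form (`t = j' - 1728`). -/
theorem cv_hes_ram_1728_gen (h3 : (3 : L) ≠ 0) {t : A} (ht : ¬ IsUnit t)
    (hgen : IntermediateField.adjoin L {algebraMap A K' t} = ⊤) {mu : E}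
    (hrel : cv_hesN mu = (algebraMap A E t + 1728) * cv_hesD mu) (P : Ideal B) [P.IsPrime]
    (hP : P ≠ ⊥) : 2 ∣ P.ramificationIdx A := by
  have hirr : Irreducible t := cv_irreducible_of_adjoin_eq_top (L := L) (K := K') ht hgen
  exact cv_hes_ram_1728' (cv_isUnit_ofNat_of_field 3 h3) hirr
    (cv_algebraMap_ne_zero' K' hirr.ne_zero) hrel P hP

end Abstract

section SubringForm

variable {L K' E : Type*} [Field L] [Field K'] [Field E] [Algebra L K'] [Algebra K' E]
  (V0 : Subring K') [IsDiscreteValuationRing V0] [IsFractionRing V0 K']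

/-- **(C2) Legendre over `j' = 0`**, `Subring` form: `V0` a discrete valuation ring of
`K' = L(j')` containing `L`, with `j' ∈ 𝔪_V0`. -/
theorem cv_leg_ram_zero_subring (h2 : (2 : L) ≠ 0) (hL : ∀ a : L, algebraMap L K' a ∈ V0)
    {j' : K'} (hgen : IntermediateField.adjoin L {j'} = ⊤) (hj : j' ∈ V0)
    (hjm : ¬ IsUnit (⟨j', hj⟩ : V0)) {lam : E}
    (hrel : cv_legN lam = algebraMap K' E j' * cv_legD lam)
    [IsDedekindDomain (integralClosure V0 E)]
    (P : Ideal (integralClosure V0 E)) [P.IsPrime] (hP : P ≠ ⊥) :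
    3 ∣ P.ramificationIdx V0 := by
  let _ : Algebra L V0 := ((algebraMap L K').codRestrict V0 hL).toAlgebra
  have : IsScalarTower L V0 K' := IsScalarTower.of_algebraMap_eq (fun _ => rfl)
  exact cv_leg_ram_zero_gen (L := L) (K' := K') (j := (⟨j', hj⟩ : V0)) h2 hjm hgen hrel P hP

/-- **(C3) Legendre over `j' = 1728`**, `Subring` form. -/
theorem cv_leg_ram_1728_subring (h2 : (2 : L) ≠ 0) (hL : ∀ a : L, algebraMap L K' a ∈ V0)
    {j' : K'} (hgen : IntermediateField.adjoin L {j'} = ⊤) (hj : j' - 1728 ∈ V0)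
    (hjm : ¬ IsUnit (⟨j' - 1728, hj⟩ : V0)) {lam : E}
    (hrel : cv_legN lam = algebraMap K' E j' * cv_legD lam)
    [IsDedekindDomain (integralClosure V0 E)]
    (P : Ideal (integralClosure V0 E)) [P.IsPrime] (hP : P ≠ ⊥) :
    2 ∣ P.ramificationIdx V0 := by
  let _ : Algebra L V0 := ((algebraMap L K').codRestrict V0 hL).toAlgebra
  have : IsScalarTower L V0 K' := IsScalarTower.of_algebraMap_eq (fun _ => rfl)
  have hrel' : cv_legN lam
      = (algebraMap V0 E (⟨j' - 1728, hj⟩ : V0) + 1728) * cv_legD lam := by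
    have : algebraMap V0 E (⟨j' - 1728, hj⟩ : V0) = algebraMap K' E (j' - 1728) := rfl
    rw [this, map_sub, map_ofNat, sub_add_cancel]
    exact hrel
  exact cv_leg_ram_1728_gen (L := L) (K' := K') (t := (⟨j' - 1728, hj⟩ : V0)) h2 hjm
    (cv_adjoin_sub_ofNat 1728 hgen) hrel' P hP

/-- **Hesse over `j' = 0`**, `Subring` form. -/
theorem cv_hes_ram_zero_subring (h3 : (3 : L) ≠ 0) (hL : ∀ a : L, algebraMap L K' a ∈ V0)
    {j' : K'} (hgen : IntermediateField.adjoin L {j'} = ⊤) (hj : j' ∈ V0)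
    (hjm : ¬ IsUnit (⟨j', hj⟩ : V0)) {mu : E}
    (hrel : cv_hesN mu = algebraMap K' E j' * cv_hesD mu)
    [IsDedekindDomain (integralClosure V0 E)]
    (P : Ideal (integralClosure V0 E)) [P.IsPrime] (hP : P ≠ ⊥) :
    3 ∣ P.ramificationIdx V0 := by
  let _ : Algebra L V0 := ((algebraMap L K').codRestrict V0 hL).toAlgebra
  have : IsScalarTower L V0 K' := IsScalarTower.of_algebraMap_eq (fun _ => rfl)
  exact cv_hes_ram_zero_gen (L := L) (K' := K') (j := (⟨j', hj⟩ : V0)) h3 hjm hgen hrel P hP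

/-- **Hesse over `j' = 1728`**, `Subring` form. -/
theorem cv_hes_ram_1728_subring (h3 : (3 : L) ≠ 0) (hL : ∀ a : L, algebraMap L K' a ∈ V0)
    {j' : K'} (hgen : IntermediateField.adjoin L {j'} = ⊤) (hj : j' - 1728 ∈ V0)
    (hjm : ¬ IsUnit (⟨j' - 1728, hj⟩ : V0)) {mu : E}
    (hrel : cv_hesN mu = algebraMap K' E j' * cv_hesD mu)
    [IsDedekindDomain (integralClosure V0 E)]
    (P : Ideal (integralClosure V0 E)) [P.IsPrime] (hP : P ≠ ⊥) :
    2 ∣ P.ramificationIdx V0 := by
  let _ : Algebra L V0 := ((algebraMap L K').codRestrict V0 hL).toAlgebra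
  have : IsScalarTower L V0 K' := IsScalarTower.of_algebraMap_eq (fun _ => rfl)
  have hrel' : cv_hesN mu
      = (algebraMap V0 E (⟨j' - 1728, hj⟩ : V0) + 1728) * cv_hesD mu := by
    have : algebraMap V0 E (⟨j' - 1728, hj⟩ : V0) = algebraMap K' E (j' - 1728) := rfl
    rw [this, map_sub, map_ofNat, sub_add_cancel]
    exact hrel
  exact cv_hes_ram_1728_gen (L := L) (K' := K') (t := (⟨j' - 1728, hj⟩ : V0)) h3 hjm
    (cv_adjoin_sub_ofNat 1728 hgen) hrel' P hP

end SubringForm

end Fermat.Agent.JT3
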