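import Mathlib

/-!
# A field generated by a root of small degree with many automorphisms is Galois
(JT3 route (X), abstract part of the covers data; prefix `cv_`)

`L = K(x)`, `j ∈ L`, `x` a root of a nonzero polynomial of degree `≤ n` over `K(j)`, and `n`
distinct `K`-automorphisms of `L` fixing `j`.  Then `L / K(j)` is Galois of degree `n` and its
automorphisms are exactly the given ones.
-/

set_option autoImplicit false

namespace Fermat.Agent.JT3

open Polynomial Module IntermediateField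

section

variable {K L : Type*} [Field K] [Field L] [Algebra K L]

/-- A `K`-automorphism fixing `j` fixes `K(j)` pointwise. -/
theorem cv_fixes_adjoin (σ : L ≃ₐ[K] L) (j : L) (hσ : σ j = j) :
    ∀ y ∈ K⟮j⟯, σ y = y := by
  have hle : K⟮j⟯ ≤ FixedBy.intermediateField K L σ := by
    rw [adjoin_le_iff]
    rintro y hy
    rw [Set.mem_singleton_iff.1 hy]
    exact hσ
  exact fun y hy => hle hy

/-- A `K`-automorphism fixing `j`, as a `K(j)`-automorphism. -/
def cv_autOver (σ : L ≃ₐ[K] L) (j : L) (hσ : σ j = j) : L ≃ₐ[K⟮j⟯] L :=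
  { σ.toRingEquiv with
    commutes' := fun y => cv_fixes_adjoin σ j hσ y.1 y.2 }

@[simp] theorem cv_autOver_apply (σ : L ≃ₐ[K] L) (j : L) (hσ : σ j = j) (y : L) :
    cv_autOver σ j hσ y = σ y := rfl

variable (j x : L) (hgen : K⟮x⟯ = ⊤) {n : ℕ} (P : K⟮j⟯[X]) (hP : P ≠ 0)
  (hdeg : P.natDegree ≤ n) (hroot : aeval x P = 0)

include hgen in
theorem cv_adjoin_over_eq_top : K⟮j⟯⟮x⟯ = ⊤ := by
  rw [eq_top_iff]
  intro y _
  have hy : y ∈ K⟮x⟯ := by rw [hgen]; exact mem_top
  have hle : K⟮x⟯ ≤ (K⟮j⟯⟮x⟯).restrictScalars K := by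
    rw [adjoin_le_iff]
    rintro z hz
    rw [Set.mem_singleton_iff.1 hz]
    exact mem_adjoin_simple_self K⟮j⟯ x
  exact hle hy

include hP hroot in
theorem cv_isIntegral_gen : IsIntegral K⟮j⟯ x :=
  isAlgebraic_iff_isIntegral.1 ⟨P, hP, hroot⟩

include hgen hP hroot in
theorem cv_finiteDimensional : FiniteDimensional K⟮j⟯ L := by
  have h1 : FiniteDimensional K⟮j⟯ K⟮j⟯⟮x⟯ :=
    adjoin.finiteDimensional (cv_isIntegral_gen j x P hP hroot)
  rw [cv_adjoin_over_eq_top j x hgen] at h1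
  exact (topEquiv (F := K⟮j⟯) (E := L)).toLinearEquiv.finiteDimensional

include hgen hP hdeg hroot in
theorem cv_finrank_le : finrank K⟮j⟯ L ≤ n := by
  have hint := cv_isIntegral_gen j x P hP hroot
  have h1 : finrank K⟮j⟯ K⟮j⟯⟮x⟯ = (minpoly K⟮j⟯ x).natDegree := adjoin.finrank hint
  have h2 : (minpoly K⟮j⟯ x).natDegree ≤ P.natDegree :=
    natDegree_le_natDegree (minpoly.degree_le_of_ne_zero K⟮j⟯ x hP hroot)
  have h3 : finrank K⟮j⟯ K⟮j⟯⟮x⟯ = finrank K⟮j⟯ L := by
    rw [cv_adjoin_over_eq_top j x hgen]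
    exact finrank_top K⟮j⟯ L
  omega

variable (s : Fin n → (L ≃ₐ[K] L)) (hs : Function.Injective s) (hsj : ∀ i, s i j = j)

include hgen hP hdeg hroot hs hsj in
/-- the number of `K(j)`-automorphisms is `n`. -/
theorem cv_card_aut : Nat.card (L ≃ₐ[K⟮j⟯] L) = n ∧ finrank K⟮j⟯ L = n := by
  have hfd := cv_finiteDimensional j x hgen P hP hroot
  have hle := cv_finrank_le j x hgen P hP hdeg hroot
  have h1 : Nat.card (L ≃ₐ[K⟮j⟯] L) ≤ finrank K⟮j⟯ L := by
    rw [Nat.card_eq_fintype_card]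
    exact AlgEquiv.card_le
  have hinj : Function.Injective (fun i : Fin n => cv_autOver (s i) j (hsj i)) := by
    intro i i' h
    apply hs
    ext y
    exact DFunLike.congr_fun h y
  have h2 : n ≤ Nat.card (L ≃ₐ[K⟮j⟯] L) := by
    have := Nat.card_le_card_of_injective _ hinj
    rwa [Nat.card_fin] at this
  omega

include hgen hP hdeg hroot hs hsj in
/-- **`L / K(j)` is Galois.** -/
theorem cv_isGalois : IsGalois K⟮j⟯ L := by
  have hfd := cv_finiteDimensional j x hgen P hP hroot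
  obtain ⟨h1, h2⟩ := cv_card_aut j x hgen P hP hdeg hroot s hs hsj
  exact IsGalois.of_card_aut_eq_finrank K⟮j⟯ L (h1.trans h2.symm)

include hgen hP hdeg hroot hs hsj in
/-- every `K(j)`-automorphism of `L` is one of the given ones. -/
theorem cv_aut_exists (g : L ≃ₐ[K⟮j⟯] L) : ∃ i, ∀ y, g y = s i y := by
  have hfd := cv_finiteDimensional j x hgen P hP hroot
  obtain ⟨h1, -⟩ := cv_card_aut j x hgen P hP hdeg hroot s hs hsj
  have hinj : Function.Injective (fun i : Fin n => cv_autOver (s i) j (hsj i)) := by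
    intro i i' h
    apply hs
    ext y
    exact DFunLike.congr_fun h y
  have hbij : Function.Bijective (fun i : Fin n => cv_autOver (s i) j (hsj i)) := by
    rw [Nat.bijective_iff_injective_and_card]
    exact ⟨hinj, by rw [Nat.card_fin, h1]⟩
  obtain ⟨i, hi⟩ := hbij.2 g
  exact ⟨i, fun y => by rw [← hi]; rfl⟩

include hgen hP hdeg hroot hs hsj in
/-- **the fixed field is `K(j)`**: an element fixed by all the given automorphisms lies in
`K(j)`. -/
theorem cv_mem_adjoin_of_fixed (y : L) (hy : ∀ i, s i y = y) : y ∈ K⟮j⟯ := by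
  have hfd := cv_finiteDimensional j x hgen P hP hroot
  have hgal := cv_isGalois j x hgen P hP hdeg hroot s hs hsj
  have hfix : ∀ f : L ≃ₐ[K⟮j⟯] L, f y = y := by
    intro g
    obtain ⟨i, hi⟩ := cv_aut_exists j x hgen P hP hdeg hroot s hs hsj g
    rw [hi, hy]
  obtain ⟨z, hz⟩ := (IsGalois.mem_range_algebraMap_iff_fixed y).2 hfix
  rw [← hz]
  exact z.2

end

end Fermat.Agent.JT3
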