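import Mathlib

/-!
# Substitution endomorphisms of `K(X)` (JT3 route (X), covers data; prefix `cv_`)

* `cv_subst f hf : K(X) →ₐ[K] K(X)`, `X ↦ f`, for a non-constant `f`;
* `K`-algebra homomorphisms out of `K(X)` are determined by the image of `X`;
* a substitution which is an involution on `X` is an automorphism;
* when two fractional linear expressions in `X` coincide.
-/

set_option autoImplicit false

namespace Fermat.Agent.JT3

open RatFunc

noncomputable section

variable {K : Type*} [Field K]

/-- `K`-algebra homomorphisms out of `K(X)` are determined by the image of `X`. -/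
theorem cv_algHom_ext {L : Type*} [Field L] [Algebra K L] {φ ψ : RatFunc K →ₐ[K] L}
    (h : φ X = ψ X) : φ = ψ := by
  have hp : ∀ p : Polynomial K, φ (algebraMap _ _ p) = ψ (algebraMap _ _ p) := by
    intro p
    rw [← aeval_X_left_eq_algebraMap, ← Polynomial.aeval_algHom_apply,
      ← Polynomial.aeval_algHom_apply, h]
  ext x
  rw [← num_div_denom x, map_div₀, map_div₀, hp, hp]

/-- The substitution `X ↦ f`, for `f` non-constant. -/
def cv_subst (f : RatFunc K) (hf : ¬ ∃ c, f = C c) : RatFunc K →ₐ[K] RatFunc K :=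
  liftAlgHom (Polynomial.aeval f)
    (nonZeroDivisors_le_comap_nonZeroDivisors_of_injective _
      (transcendental_iff_injective.1 (transcendental_of_ne_C f hf)))

theorem cv_subst_algebraMap (f : RatFunc K) (hf : ¬ ∃ c, f = C c) (p : Polynomial K) :
    cv_subst f hf (algebraMap _ _ p) = Polynomial.aeval f p := by
  have h := liftAlgHom_apply_div (Polynomial.aeval f)
    (nonZeroDivisors_le_comap_nonZeroDivisors_of_injective _
      (transcendental_iff_injective.1 (transcendental_of_ne_C f hf))) p 1
  rw [map_one, map_one, div_one, div_one] at h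
  exact h

@[simp] theorem cv_subst_X (f : RatFunc K) (hf : ¬ ∃ c, f = C c) : cv_subst f hf X = f := by
  rw [← algebraMap_X, cv_subst_algebraMap, Polynomial.aeval_X]

/-- A substitution whose square fixes `X` is an automorphism. -/
def cv_substEquiv (f : RatFunc K) (hf : ¬ ∃ c, f = C c) (h : cv_subst f hf f = X) :
    RatFunc K ≃ₐ[K] RatFunc K :=
  AlgEquiv.ofAlgHom (cv_subst f hf) (cv_subst f hf)
    (cv_algHom_ext (by rw [AlgHom.comp_apply, cv_subst_X, h]; rfl))
    (cv_algHom_ext (by rw [AlgHom.comp_apply, cv_subst_X, h]; rfl))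

@[simp] theorem cv_substEquiv_X (f : RatFunc K) (hf : ¬ ∃ c, f = C c)
    (h : cv_subst f hf f = X) : cv_substEquiv f hf h X = f := cv_subst_X f hf

theorem cv_substEquiv_apply (f : RatFunc K) (hf : ¬ ∃ c, f = C c)
    (h : cv_subst f hf f = X) (x : RatFunc K) : cv_substEquiv f hf h x = cv_subst f hf x := rfl

/-- `X` is not a constant. -/
theorem cv_X_ne_C : ¬ ∃ c : K, (X : RatFunc K) = C c := by
  rintro ⟨c, hc⟩
  have h1 : algebraMap (Polynomial K) (RatFunc K) Polynomial.X =
      algebraMap (Polynomial K) (RatFunc K) (Polynomial.C c) := by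
    rw [algebraMap_X, algebraMap_C, hc]
  have h2 := algebraMap_injective K h1
  exact Polynomial.X_ne_C c h2

/-- A fractional linear expression `(aX + b)/(cX + d)` in `K(X)`. -/
def cv_moeb (a b c d : K) : RatFunc K := (C a * X + C b) / (C c * X + C d)

/-- a linear polynomial `cX + d` with `(c, d) ≠ 0` is nonzero in `K(X)`. -/
theorem cv_lin_ne_zero {c d : K} (h : c ≠ 0 ∨ d ≠ 0) : (C c * X + C d : RatFunc K) ≠ 0 := by
  intro h0
  have h1 : algebraMap (Polynomial K) (RatFunc K)
      (Polynomial.C c * Polynomial.X + Polynomial.C d) = 0 := by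
    rw [map_add, map_mul, algebraMap_X, algebraMap_C, algebraMap_C]
    exact h0
  have h2 : Polynomial.C c * Polynomial.X + Polynomial.C d = (0 : Polynomial K) :=
    algebraMap_injective K (by rw [h1, map_zero])
  have hc : c = 0 := by
    have := congrArg (fun p : Polynomial K => p.coeff 1) h2
    simpa using this
  have hd : d = 0 := by
    have := congrArg (fun p : Polynomial K => p.coeff 0) h2
    simpa using this
  rcases h with h | h
  · exact h hc
  · exact h hd

/-- comparison of the coefficients of two quadratic polynomials. -/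
theorem cv_quad_coeff {u v w u' v' w' : K}
    (h : Polynomial.C u * Polynomial.X ^ 2 + Polynomial.C v * Polynomial.X + Polynomial.C w =
      Polynomial.C u' * Polynomial.X ^ 2 + Polynomial.C v' * Polynomial.X + Polynomial.C w') :
    u = u' ∧ v = v' ∧ w = w' := by
  refine ⟨?_, ?_, ?_⟩
  · have := congrArg (fun p : Polynomial K => p.coeff 2) h
    simpa [Polynomial.coeff_X, Polynomial.coeff_C, Polynomial.coeff_X_pow] using this
  · have := congrArg (fun p : Polynomial K => p.coeff 1) h
    simpa [Polynomial.coeff_X, Polynomial.coeff_C, Polynomial.coeff_X_pow] using this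
  · have := congrArg (fun p : Polynomial K => p.coeff 0) h
    simpa [Polynomial.coeff_X, Polynomial.coeff_C, Polynomial.coeff_X_pow] using this

/-- equality of two fractional linear expressions, by coefficients. -/
theorem cv_moeb_eq {a b c d a' b' c' d' : K} (h : c ≠ 0 ∨ d ≠ 0) (h' : c' ≠ 0 ∨ d' ≠ 0)
    (he : cv_moeb a b c d = cv_moeb a' b' c' d') :
    a * c' = a' * c ∧ a * d' + b * c' = a' * d + b' * c ∧ b * d' = b' * d := by
  unfold cv_moeb at he
  rw [div_eq_div_iff (cv_lin_ne_zero h) (cv_lin_ne_zero h')] at he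
  have h1 : algebraMap (Polynomial K) (RatFunc K)
      ((Polynomial.C a * Polynomial.X + Polynomial.C b) *
        (Polynomial.C c' * Polynomial.X + Polynomial.C d')) =
      algebraMap (Polynomial K) (RatFunc K)
      ((Polynomial.C a' * Polynomial.X + Polynomial.C b') *
        (Polynomial.C c * Polynomial.X + Polynomial.C d)) := by
    simp only [map_add, map_mul, algebraMap_X, algebraMap_C]
    exact he
  have h2 := algebraMap_injective K h1
  have h3 : Polynomial.C (a * c') * Polynomial.X ^ 2 +
      Polynomial.C (a * d' + b * c') * Polynomial.X + Polynomial.C (b * d') =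
      Polynomial.C (a' * c) * Polynomial.X ^ 2 +
      Polynomial.C (a' * d + b' * c) * Polynomial.X + Polynomial.C (b' * d) := by
    simp only [map_add, map_mul]
    linear_combination h2
  exact cv_quad_coeff h3

/-! ### The action of invertible matrices by fractional linear substitutions -/

theorem cv_C_eq_moeb (e : K) : (C e : RatFunc K) = cv_moeb 0 e 0 1 := by
  unfold cv_moeb
  simp

theorem cv_moeb_scalar {e : K} (he : e ≠ 0) : cv_moeb e 0 0 e = (X : RatFunc K) := by
  unfold cv_moeb
  have hC : (C e : RatFunc K) ≠ 0 := by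
    rw [Ne, ← algebraMap_eq_C, map_eq_zero_iff _ (algebraMap K (RatFunc K)).injective]
    exact he
  rw [map_zero, zero_mul, zero_add, add_zero, mul_comm, mul_div_assoc, div_self hC, mul_one]

/-- a fractional linear expression with nonzero determinant is not constant. -/
theorem cv_moeb_ne_C {a b c d : K} (hdet : a * d - b * c ≠ 0) :
    ¬ ∃ e, cv_moeb a b c d = C e := by
  rintro ⟨e, he⟩
  rw [cv_C_eq_moeb] at he
  have hcd : c ≠ 0 ∨ d ≠ 0 := by
    by_contra h
    rw [not_or, not_not, not_not] at h
    apply hdet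
    rw [h.1, h.2]
    ring
  obtain ⟨-, h2, h3⟩ := cv_moeb_eq hcd (Or.inr one_ne_zero) he
  apply hdet
  have ha : a = e * c := by linear_combination h2
  have hb : b = e * d := by linear_combination h3
  rw [ha, hb]
  ring

theorem cv_den_ne_zero {a b c d : K} (hdet : a * d - b * c ≠ 0) : c ≠ 0 ∨ d ≠ 0 := by
  by_contra h
  rw [not_or, not_not, not_not] at h
  apply hdet
  rw [h.1, h.2]
  ring

/-- the image of a fractional linear expression under a `K`-algebra homomorphism. -/
theorem cv_map_moeb (φ : RatFunc K →ₐ[K] RatFunc K) (a b c d : K) :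
    φ (cv_moeb a b c d) = (C a * φ X + C b) / (C c * φ X + C d) := by
  unfold cv_moeb
  rw [map_div₀, map_add, map_add, map_mul, map_mul]
  simp only [← algebraMap_eq_C, AlgHom.commutes]

/-- substituting `(aX+b)/(cX+d)` in `(a'X+b')/(c'X+d')` gives the expression of the product
matrix. -/
theorem cv_subst_moeb {a b c d : K} (hdet : a * d - b * c ≠ 0) (a' b' c' d' : K) :
    cv_subst (cv_moeb a b c d) (cv_moeb_ne_C hdet) (cv_moeb a' b' c' d') =
      cv_moeb (a' * a + b' * c) (a' * b + b' * d) (c' * a + d' * c) (c' * b + d' * d) := by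
  rw [cv_map_moeb, cv_subst_X]
  unfold cv_moeb
  have hne := cv_lin_ne_zero (cv_den_ne_zero hdet)
  rw [← mul_div_mul_right _ _ hne]
  congr 1
  · rw [add_mul, mul_assoc, div_mul_cancel₀ _ hne]
    simp only [map_add, map_mul]
    ring
  · rw [add_mul, mul_assoc, div_mul_cancel₀ _ hne]
    simp only [map_add, map_mul]
    ring

/-- **The automorphism `X ↦ (aX+b)/(cX+d)`** of `K(X)`, for a matrix of nonzero determinant. -/
def cv_moebEquiv (a b c d : K) (hdet : a * d - b * c ≠ 0) : RatFunc K ≃ₐ[K] RatFunc K :=
  have hdet' : d * a - -b * -c ≠ 0 := by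
    intro h
    apply hdet
    linear_combination h
  AlgEquiv.ofAlgHom (cv_subst (cv_moeb a b c d) (cv_moeb_ne_C hdet))
    (cv_subst (cv_moeb d (-b) (-c) a) (cv_moeb_ne_C hdet'))
    (cv_algHom_ext (by
      rw [AlgHom.comp_apply, cv_subst_X, cv_subst_moeb hdet]
      have h1 : d * a + -b * c = a * d - b * c := by ring
      have h2 : d * b + -b * d = 0 := by ring
      have h3 : -c * a + a * c = 0 := by ring
      have h4 : -c * b + a * d = a * d - b * c := by ring
      rw [h1, h2, h3, h4, cv_moeb_scalar hdet]
      rfl))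
    (cv_algHom_ext (by
      rw [AlgHom.comp_apply, cv_subst_X, cv_subst_moeb hdet']
      have h1 : a * d + b * -c = a * d - b * c := by ring
      have h2 : a * -b + b * a = 0 := by ring
      have h3 : c * d + d * -c = 0 := by ring
      have h4 : c * -b + d * a = a * d - b * c := by ring
      rw [h1, h2, h3, h4, cv_moeb_scalar hdet]
      rfl))

theorem cv_moebEquiv_apply (a b c d : K) (hdet : a * d - b * c ≠ 0) (x : RatFunc K) :
    cv_moebEquiv a b c d hdet x = cv_subst (cv_moeb a b c d) (cv_moeb_ne_C hdet) x := rfl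

@[simp] theorem cv_moebEquiv_X (a b c d : K) (hdet : a * d - b * c ≠ 0) :
    cv_moebEquiv a b c d hdet X = cv_moeb a b c d :=
  cv_subst_X (cv_moeb a b c d) (cv_moeb_ne_C hdet)

theorem cv_moebEquiv_moeb (a b c d : K) (hdet : a * d - b * c ≠ 0) (a' b' c' d' : K) :
    cv_moebEquiv a b c d hdet (cv_moeb a' b' c' d') =
      cv_moeb (a' * a + b' * c) (a' * b + b' * d) (c' * a + d' * c) (c' * b + d' * d) :=
  cv_subst_moeb hdet a' b' c' d'

/-- automorphisms of `K(X)` over `K` are determined by the image of `X`. -/
theorem cv_algEquiv_ext {φ ψ : RatFunc K ≃ₐ[K] RatFunc K} (h : φ X = ψ X) : φ = ψ := by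
  have : (φ : RatFunc K →ₐ[K] RatFunc K) = ψ := cv_algHom_ext h
  ext x
  exact DFunLike.congr_fun this x

end

end Fermat.Agent.JT3
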