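import Fermat.Agent.JT3.Cover.Identities
import Fermat.Agent.JT3.Cover.FixedField
import Fermat.Agent.JT3.Cover.Subst

/-!
# The Hesse cover `K(μ) / K(j)` is Galois of degree `12` (JT3 route (X); prefix `cv_`)

`j = 27 μ³ (μ³ + 8)³ / (μ³ - 1)³`; for a primitive cube root of unity `ω ∈ K` (`3 ≠ 0` in `K`) the
automorphisms `μ ↦ ω μ`, `μ ↦ (μ + 2)/(μ - 1)` generate a group of order `12 = [K(μ) : K(j)]`
(the tetrahedral group).  Its twelve elements are `μ ↦ ωᵃ μ` and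
`μ ↦ ωᵃ (ωᵇ μ + 2)/(ωᵇ μ - 1)`.
-/

set_option autoImplicit false

namespace Fermat.Agent.JT3

open RatFunc IntermediateField Module

noncomputable section

/-- ring homomorphisms commute with the Hesse `j`-function. -/
theorem cv_map_hesJ {L L' : Type*} [Field L] [Field L'] (φ : L →+* L') (x : L) :
    φ (cv_hesJ x) = cv_hesJ (φ x) := by
  unfold cv_hesJ cv_hesN cv_hesD
  simp only [map_div₀, map_mul, map_pow, map_sub, map_add, map_one, map_ofNat]

variable {K : Type*} [Field K]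

/-! ### Cube roots of unity -/

section Omega

variable {ω : K} (hω : ω ^ 2 + ω + 1 = 0)

include hω

theorem cv_omega_pow_three : ω ^ 3 = 1 := by linear_combination (ω - 1) * hω

theorem cv_omega_ne_zero : ω ≠ 0 := by
  intro h
  have := cv_omega_pow_three hω
  rw [h] at this
  simp at this

/-- the powers `1, ω, ω²`. -/
def cv_pw (ω : K) : Fin 3 → K := ![1, ω, ω ^ 2]

omit hω in
theorem cv_pw_eq (ω : K) (a : Fin 3) : cv_pw ω a = ω ^ (a : ℕ) := by
  fin_cases a <;> simp [cv_pw]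

theorem cv_pw_pow_three (a : Fin 3) : cv_pw ω a ^ 3 = 1 := by
  rw [cv_pw_eq, ← pow_mul, mul_comm, pow_mul, cv_omega_pow_three hω, one_pow]

theorem cv_pw_ne_zero (a : Fin 3) : cv_pw ω a ≠ 0 := by
  rw [cv_pw_eq]
  exact pow_ne_zero _ (cv_omega_ne_zero hω)

theorem cv_pw_injective (h3 : (3 : K) ≠ 0) : Function.Injective (cv_pw ω) := by
  have h1 : ω ≠ 1 := by
    intro h
    apply h3
    rw [h] at hω
    linear_combination hω
  have h2 : ω ^ 2 ≠ 1 := by
    intro h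
    apply h1
    have := cv_omega_pow_three hω
    rw [pow_succ, h, one_mul] at this
    exact this
  have h4 : ω ^ 2 ≠ ω := by
    intro h
    apply h1
    have h0 := cv_omega_ne_zero hω
    have : ω * ω = ω * 1 := by rw [mul_one, ← pow_two, h]
    exact mul_left_cancel₀ h0 this
  intro a b hab
  rw [cv_pw_eq, cv_pw_eq] at hab
  fin_cases a <;> fin_cases b <;> first | rfl | exfalso
  · exact h1 (by simpa using hab.symm)
  · exact h2 (by simpa using hab.symm)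
  · exact h1 (by simpa using hab)
  · exact h4 (by simpa using hab.symm)
  · exact h2 (by simpa using hab)
  · exact h4 (by simpa using hab)

end Omega

/-! ### The twelve automorphisms -/

section Auts

variable {ω : K} (hω : ω ^ 2 + ω + 1 = 0) (h3 : (3 : K) ≠ 0)

/-- The index set of the twelve automorphisms. -/
abbrev cv_hesI : Type := Fin 3 ⊕ Fin 3 × Fin 3

/-- The matrices `(a, b, c, d)` of the twelve automorphisms `μ ↦ (aμ + b)/(cμ + d)`. -/
def cv_hesM (ω : K) : cv_hesI → K × K × K × K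
  | Sum.inl a => (cv_pw ω a, 0, 0, 1)
  | Sum.inr (a, b) => (cv_pw ω a * cv_pw ω b, 2 * cv_pw ω a, cv_pw ω b, -1)

include hω h3 in
theorem cv_hesM_det (i : cv_hesI) :
    (cv_hesM ω i).1 * (cv_hesM ω i).2.2.2 - (cv_hesM ω i).2.1 * (cv_hesM ω i).2.2.1 ≠ 0 := by
  rcases i with a | ⟨a, b⟩
  · show cv_pw ω a * 1 - 0 * 0 ≠ 0
    rw [mul_one, zero_mul, sub_zero]
    exact cv_pw_ne_zero hω a
  · show cv_pw ω a * cv_pw ω b * -1 - 2 * cv_pw ω a * cv_pw ω b ≠ 0
    have : cv_pw ω a * cv_pw ω b * -1 - 2 * cv_pw ω a * cv_pw ω b =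
        -(3 * (cv_pw ω a * cv_pw ω b)) := by ring
    rw [this]
    exact neg_ne_zero.2 (mul_ne_zero h3 (mul_ne_zero (cv_pw_ne_zero hω a) (cv_pw_ne_zero hω b)))

/-- The twelve automorphisms of `K(μ)`. -/
def cv_hesS (i : cv_hesI) : RatFunc K ≃ₐ[K] RatFunc K :=
  cv_moebEquiv (cv_hesM ω i).1 (cv_hesM ω i).2.1 (cv_hesM ω i).2.2.1 (cv_hesM ω i).2.2.2
    (cv_hesM_det hω h3 i)

theorem cv_hesS_X (i : cv_hesI) :
    cv_hesS hω h3 i X =
      cv_moeb (cv_hesM ω i).1 (cv_hesM ω i).2.1 (cv_hesM ω i).2.2.1 (cv_hesM ω i).2.2.2 :=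
  cv_moebEquiv_X _ _ _ _ _

include hω h3 in
theorem cv_hesM_den (i : cv_hesI) : (cv_hesM ω i).2.2.1 ≠ 0 ∨ (cv_hesM ω i).2.2.2 ≠ 0 :=
  cv_den_ne_zero (cv_hesM_det hω h3 i)

theorem cv_hesS_injective : Function.Injective (cv_hesS hω h3) := by
  intro i i' h
  have h1 := congrArg (fun φ : RatFunc K ≃ₐ[K] RatFunc K => φ X) h
  simp only [cv_hesS_X] at h1
  obtain ⟨e1, e2, e3⟩ := cv_moeb_eq (cv_hesM_den hω h3 i) (cv_hesM_den hω h3 i') h1
  have hinj := cv_pw_injective hω h3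
  rcases i with a | ⟨a, b⟩ <;> rcases i' with a' | ⟨a', b'⟩
  · -- `ωᵃ μ = ωᵃ' μ`
    have e2' : cv_pw ω a * 1 + 0 * 0 = cv_pw ω a' * 1 + 0 * 0 := e2
    have : cv_pw ω a = cv_pw ω a' := by linear_combination e2'
    rw [hinj this]
  · exfalso
    have e1' : cv_pw ω a * cv_pw ω b' = cv_pw ω a' * cv_pw ω b' * 0 := e1
    rw [mul_zero] at e1'
    exact mul_ne_zero (cv_pw_ne_zero hω a) (cv_pw_ne_zero hω b') e1'
  · exfalso
    have e1' : cv_pw ω a * cv_pw ω b * 0 = cv_pw ω a' * cv_pw ω b := e1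
    rw [mul_zero] at e1'
    exact mul_ne_zero (cv_pw_ne_zero hω a') (cv_pw_ne_zero hω b) e1'.symm
  · have e1' : cv_pw ω a * cv_pw ω b * cv_pw ω b' = cv_pw ω a' * cv_pw ω b' * cv_pw ω b := e1
    have hbb : cv_pw ω b * cv_pw ω b' ≠ 0 :=
      mul_ne_zero (cv_pw_ne_zero hω b) (cv_pw_ne_zero hω b')
    have ha : cv_pw ω a = cv_pw ω a' := by
      apply mul_right_cancel₀ hbb
      linear_combination e1'
    have haa : a = a' := hinj ha
    subst haa
    have e2' : cv_pw ω a * cv_pw ω b * -1 + 2 * cv_pw ω a * cv_pw ω b' =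
        cv_pw ω a * cv_pw ω b' * -1 + 2 * cv_pw ω a * cv_pw ω b := e2
    have hb : cv_pw ω b = cv_pw ω b' := by
      apply mul_left_cancel₀ (mul_ne_zero h3 (cv_pw_ne_zero hω a))
      linear_combination -e2'
    rw [hinj hb]

variable (K) in
/-- The Hesse `j`-function as an element of `K(μ)`. -/
def cv_hesj : RatFunc K := cv_hesJ (X : RatFunc K)

include h3 in
theorem cv_three_ne_zero : (3 : RatFunc K) ≠ 0 := by
  intro h
  apply h3
  apply (algebraMap K (RatFunc K)).injective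
  rw [map_zero, map_ofNat]
  exact h

theorem cv_hesS_j (i : cv_hesI) : cv_hesS hω h3 i (cv_hesj K) = cv_hesj K := by
  unfold cv_hesj
  rw [← AlgEquiv.coe_ringEquiv, ← RingEquiv.coe_toRingHom, cv_map_hesJ]
  show cv_hesJ (cv_hesS hω h3 i X) = _
  rw [cv_hesS_X]
  rcases i with a | ⟨a, b⟩
  · show cv_hesJ (cv_moeb (cv_pw ω a) 0 0 1) = _
    have h1 : cv_moeb (cv_pw ω a) 0 0 1 = C (cv_pw ω a) * (X : RatFunc K) := by
      unfold cv_moeb
      simp only [map_zero, map_one, zero_mul, zero_add, add_zero, div_one]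
    have hw : (C (cv_pw ω a) : RatFunc K) ^ 3 = 1 := by
      rw [← map_pow, cv_pw_pow_three hω, map_one]
    rw [h1, cv_hesJ_mul hw]
  · show cv_hesJ (cv_moeb (cv_pw ω a * cv_pw ω b) (2 * cv_pw ω a) (cv_pw ω b) (-1)) = _
    have hne : (C (cv_pw ω b) * X + C (-1) : RatFunc K) ≠ 0 :=
      cv_lin_ne_zero (Or.inl (cv_pw_ne_zero hω b))
    have hy1 : C (cv_pw ω b) * (X : RatFunc K) ≠ 1 := by
      intro h
      apply hne
      rw [h, map_neg, map_one, add_neg_cancel]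
    have h1 : cv_moeb (cv_pw ω a * cv_pw ω b) (2 * cv_pw ω a) (cv_pw ω b) (-1) =
        C (cv_pw ω a) * ((C (cv_pw ω b) * X + 2) / (C (cv_pw ω b) * X - 1)) := by
      unfold cv_moeb
      rw [← mul_div_assoc]
      congr 1
      · simp only [map_mul, map_ofNat]
        ring
      · simp only [map_neg, map_one]
        ring
    have hwa : (C (cv_pw ω a) : RatFunc K) ^ 3 = 1 := by
      rw [← map_pow, cv_pw_pow_three hω, map_one]
    have hwb : (C (cv_pw ω b) : RatFunc K) ^ 3 = 1 := by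
      rw [← map_pow, cv_pw_pow_three hω, map_one]
    rw [h1, cv_hesJ_mul hwa, cv_hesJ_moebius hy1 (cv_three_ne_zero h3), cv_hesJ_mul hwb]

/-! ### The extension `K(μ) / K(j)` -/

variable (K) in
/-- `j` as an element of `K(j)`. -/
def cv_hesjE : K⟮cv_hesj K⟯ := ⟨cv_hesj K, mem_adjoin_simple_self K _⟩

variable (K) in
/-- The polynomial `27 T³ (T³ + 8)³ - j (T³ - 1)³` over `K(j)`. -/
def cv_hesP : Polynomial K⟮cv_hesj K⟯ :=
  Polynomial.C 27 * (Polynomial.X ^ 3 * (Polynomial.X ^ 3 + 8) ^ 3) -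
    Polynomial.C (cv_hesjE K) * (Polynomial.X ^ 3 - 1) ^ 3

omit hω h3 in
theorem cv_hesP_natDegree : (cv_hesP K).natDegree ≤ 12 := by
  unfold cv_hesP
  compute_degree

include h3 in
omit hω in
theorem cv_hesP_ne_zero : cv_hesP K ≠ 0 := by
  intro h
  have h1 : (cv_hesP K).eval 1 = 27 * 729 := by
    unfold cv_hesP
    simp
    norm_num
  rw [h, Polynomial.eval_zero] at h1
  have h4 : (27 * 729 : RatFunc K) = 0 := by
    have := congrArg (algebraMap K⟮cv_hesj K⟯ (RatFunc K)) h1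
    rw [map_zero, map_mul, map_ofNat, map_ofNat] at this
    exact this.symm
  have h5 : (27 * 729 : RatFunc K) = 3 ^ 9 := by norm_num
  rw [h5] at h4
  exact cv_three_ne_zero h3 (pow_eq_zero_iff (by norm_num) |>.1 h4)

omit hω h3 in
theorem cv_X_pow_three_ne_one : (X : RatFunc K) ^ 3 ≠ 1 := by
  intro h
  have h1 : algebraMap (Polynomial K) (RatFunc K) (Polynomial.X ^ 3) =
      algebraMap (Polynomial K) (RatFunc K) 1 := by
    rw [map_pow, algebraMap_X, map_one, h]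
  have h2 := algebraMap_injective K h1
  have := congrArg (fun p : Polynomial K => p.coeff 3) h2
  simp [Polynomial.coeff_X_pow, Polynomial.coeff_one] at this

omit hω h3 in
theorem cv_hesP_root : Polynomial.aeval (X : RatFunc K) (cv_hesP K) = 0 := by
  unfold cv_hesP
  simp only [map_sub, map_mul, map_pow, map_add, map_one, Polynomial.aeval_X, Polynomial.aeval_C]
  have h := cv_hesJ_mul_hesD (cv_X_pow_three_ne_one (K := K))
  unfold cv_hesN cv_hesD at h
  have h27 : (algebraMap K⟮cv_hesj K⟯ (RatFunc K)) 27 = 27 := map_ofNat _ 27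
  have h8 : Polynomial.aeval (X : RatFunc K) (8 : Polynomial K⟮cv_hesj K⟯) = 8 := by
    rw [← map_ofNat (Polynomial.C (R := K⟮cv_hesj K⟯)) 8, Polynomial.aeval_C, map_ofNat]
  have hj : (algebraMap K⟮cv_hesj K⟯ (RatFunc K)) (cv_hesjE K) = cv_hesJ (X : RatFunc K) := rfl
  rw [h27, hj, h8]
  linear_combination h

/-- the twelve automorphisms, indexed by `Fin 12`. -/
def cv_hesS' : Fin 12 → (RatFunc K ≃ₐ[K] RatFunc K) :=
  fun i => cv_hesS hω h3 ((Fintype.equivFinOfCardEq (α := cv_hesI) (by rfl)).symm i)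

theorem cv_hesS'_injective : Function.Injective (cv_hesS' hω h3) :=
  (cv_hesS_injective hω h3).comp (Equiv.injective _)

theorem cv_hesS'_j (i : Fin 12) : cv_hesS' hω h3 i (cv_hesj K) = cv_hesj K :=
  cv_hesS_j hω h3 _

theorem cv_hesS'_surj (i : cv_hesI) : ∃ k, cv_hesS' hω h3 k = cv_hesS hω h3 i :=
  ⟨Fintype.equivFinOfCardEq (α := cv_hesI) (by rfl) i, by
    unfold cv_hesS'
    rw [Equiv.symm_apply_apply]⟩

include hω h3 in
/-- **`K(μ) / K(j)` has degree `12`.** -/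
theorem cv_hes_finrank : finrank K⟮cv_hesj K⟯ (RatFunc K) = 12 :=
  (cv_card_aut (cv_hesj K) X adjoin_X (cv_hesP K) (cv_hesP_ne_zero h3) cv_hesP_natDegree
    cv_hesP_root (cv_hesS' hω h3) (cv_hesS'_injective hω h3) (cv_hesS'_j hω h3)).2

include h3 in
omit hω in
theorem cv_hes_finiteDimensional : FiniteDimensional K⟮cv_hesj K⟯ (RatFunc K) :=
  cv_finiteDimensional (cv_hesj K) X adjoin_X (cv_hesP K) (cv_hesP_ne_zero h3) cv_hesP_root

include hω h3 in
/-- **`K(μ) / K(j)` is Galois.** -/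
theorem cv_hes_isGalois : IsGalois K⟮cv_hesj K⟯ (RatFunc K) :=
  cv_isGalois (cv_hesj K) X adjoin_X (cv_hesP K) (cv_hesP_ne_zero h3) cv_hesP_natDegree
    cv_hesP_root (cv_hesS' hω h3) (cv_hesS'_injective hω h3) (cv_hesS'_j hω h3)

include hω h3 in
theorem cv_hes_card_aut : Nat.card (RatFunc K ≃ₐ[K⟮cv_hesj K⟯] RatFunc K) = 12 :=
  (cv_card_aut (cv_hesj K) X adjoin_X (cv_hesP K) (cv_hesP_ne_zero h3) cv_hesP_natDegree
    cv_hesP_root (cv_hesS' hω h3) (cv_hesS'_injective hω h3) (cv_hesS'_j hω h3)).1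

/-- every automorphism of `K(μ)` over `K(j)` is one of the twelve. -/
theorem cv_hes_aut_exists (g : RatFunc K ≃ₐ[K⟮cv_hesj K⟯] RatFunc K) :
    ∃ i, ∀ y, g y = cv_hesS hω h3 i y := by
  obtain ⟨k, hk⟩ := cv_aut_exists (cv_hesj K) X adjoin_X (cv_hesP K) (cv_hesP_ne_zero h3)
    cv_hesP_natDegree cv_hesP_root (cv_hesS' hω h3) (cv_hesS'_injective hω h3)
    (cv_hesS'_j hω h3) g
  exact ⟨_, hk⟩

/-- **the invariants of the twelve automorphisms are `K(j)`.** -/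
theorem cv_hes_mem_of_fixed (y : RatFunc K) (hy : ∀ i, cv_hesS hω h3 i y = y) :
    y ∈ K⟮cv_hesj K⟯ :=
  cv_mem_adjoin_of_fixed (cv_hesj K) X adjoin_X (cv_hesP K) (cv_hesP_ne_zero h3)
    cv_hesP_natDegree cv_hesP_root (cv_hesS' hω h3) (cv_hesS'_injective hω h3)
    (cv_hesS'_j hω h3) y (fun _ => hy _)

/-! ### Generators -/

/-- `σ : μ ↦ ω μ`. -/
def cv_hesσ : RatFunc K ≃ₐ[K] RatFunc K := cv_hesS hω h3 (Sum.inl 1)

/-- `τ : μ ↦ (μ + 2)/(μ - 1)`. -/
def cv_hesτ : RatFunc K ≃ₐ[K] RatFunc K := cv_hesS hω h3 (Sum.inr (0, 0))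

theorem cv_hesS_inl_X (a : Fin 3) :
    cv_hesS hω h3 (Sum.inl a) X = C (cv_pw ω a) * (X : RatFunc K) := by
  rw [cv_hesS_X]
  show cv_moeb (cv_pw ω a) 0 0 1 = _
  unfold cv_moeb
  simp only [map_zero, map_one, zero_mul, zero_add, add_zero, div_one]

theorem cv_hesS_inr_X (a b : Fin 3) :
    cv_hesS hω h3 (Sum.inr (a, b)) X =
      C (cv_pw ω a) * ((C (cv_pw ω b) * X + 2) / (C (cv_pw ω b) * X - 1)) := by
  rw [cv_hesS_X]
  show cv_moeb (cv_pw ω a * cv_pw ω b) (2 * cv_pw ω a) (cv_pw ω b) (-1) = _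
  unfold cv_moeb
  rw [← mul_div_assoc]
  congr 1
  · simp only [map_mul, map_ofNat]
    ring
  · simp only [map_neg, map_one]
    ring

theorem cv_hesσ_X : cv_hesσ hω h3 X = C ω * (X : RatFunc K) := by
  unfold cv_hesσ
  rw [cv_hesS_inl_X]
  rfl

theorem cv_hesτ_X : cv_hesτ hω h3 X = ((X : RatFunc K) + 2) / (X - 1) := by
  unfold cv_hesτ
  rw [cv_hesS_inr_X]
  show C (1 : K) * ((C (1 : K) * X + 2) / (C (1 : K) * X - 1)) = _
  rw [map_one, one_mul, one_mul]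

theorem cv_hesσ_pow_X (n : ℕ) : (cv_hesσ hω h3 ^ n) X = C (ω ^ n) * (X : RatFunc K) := by
  induction n with
  | zero => rw [pow_zero, pow_zero, map_one, one_mul]; rfl
  | succ n ih =>
    rw [pow_succ, AlgEquiv.mul_apply, cv_hesσ_X, map_mul, ih, pow_succ, map_mul]
    have : (cv_hesσ hω h3 ^ n) (C ω) = C ω := by
      rw [← algebraMap_eq_C]
      exact AlgEquiv.commutes _ _
    rw [this]
    ring

theorem cv_hesS_inl (a : Fin 3) : cv_hesS hω h3 (Sum.inl a) = cv_hesσ hω h3 ^ (a : ℕ) := by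
  apply cv_algEquiv_ext
  rw [cv_hesS_inl_X, cv_hesσ_pow_X, cv_pw_eq]

theorem cv_hesS_inr (a b : Fin 3) :
    cv_hesS hω h3 (Sum.inr (a, b)) =
      cv_hesσ hω h3 ^ (b : ℕ) * cv_hesτ hω h3 * cv_hesσ hω h3 ^ (a : ℕ) := by
  apply cv_algEquiv_ext
  rw [cv_hesS_inr_X, AlgEquiv.mul_apply, AlgEquiv.mul_apply, cv_hesσ_pow_X, map_mul, map_mul,
    cv_hesτ_X, map_div₀, map_add, map_sub, cv_hesσ_pow_X, cv_pw_eq, cv_pw_eq]
  have hC : ∀ (φ : RatFunc K ≃ₐ[K] RatFunc K) (c : K), φ (C c) = C c := by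
    intro φ c
    rw [← algebraMap_eq_C]
    exact AlgEquiv.commutes _ _
  rw [hC, hC, map_ofNat, map_one]

/-- **the invariants of `⟨σ, τ⟩` are `K(j)`.** -/
theorem cv_hes_mem_of_fixed' (y : RatFunc K) (hσ : cv_hesσ hω h3 y = y)
    (hτ : cv_hesτ hω h3 y = y) : y ∈ K⟮cv_hesj K⟯ := by
  have hpow : ∀ n : ℕ, (cv_hesσ hω h3 ^ n) y = y := by
    intro n
    induction n with
    | zero => rfl
    | succ n ih => rw [pow_succ, AlgEquiv.mul_apply, hσ, ih]
  refine cv_hes_mem_of_fixed hω h3 y ?_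
  rintro (a | ⟨a, b⟩)
  · rw [cv_hesS_inl, hpow]
  · rw [cv_hesS_inr, AlgEquiv.mul_apply, AlgEquiv.mul_apply, hpow, hτ, hpow]

end Auts

end

end Fermat.Agent.JT3
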