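import Fermat.Agent.JT3.Cover.Legendre
import Fermat.Agent.JT3.Cover.Hesse

/-!
# Integrality relations of the Legendre and Hesse covers (JT3 route (X); prefix `cv_`)

Over a base ring `O` (with `2`, resp. `3`, a unit), inside `K(λ)` resp. `K(μ)`:

* chart `O[j]`: `λ, 1/λ, 1/(1-λ)` resp. `μ, 1/(ωᵇμ - 1), 1/(μ³ - 1)` are integral over `O[j]`;
* chart `O[1/j]`: `1/(λ² - λ + 1), λ/(λ² - λ + 1)` resp. `1/μ, 1/(ωᵇμ + 2), 1/(μ³ + 8)` are integral
  over `O[1/j]`.

The ring-level statements are for arbitrary `O`-algebras (no division).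
-/

set_option autoImplicit false

namespace Fermat.Agent.JT3

section RingLevel

open Polynomial

variable {O S : Type*} [CommRing O] [CommRing S] [Algebra O S]

private lemma cv_isIntegral_of_subsingleton' {A : Type*} [CommRing A] [Algebra A S]
    [Subsingleton A] (x : S) : IsIntegral A x := by
  refine ⟨1, monic_one, ?_⟩
  have h1 : (1 : S) = 0 := by
    rw [← map_one (algebraMap A S), Subsingleton.elim (1 : A) 0, map_zero]
  have : Subsingleton S := subsingleton_of_zero_eq_one h1.symm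
  exact Subsingleton.elim _ _

/-- Legendre, chart `1/j`: `u = 1/(x² - x + 1)` satisfies `u³ - 2u² + u = 256/j`. -/
theorem cv_leg_u_rel {u x i : S} (hu : u * (x ^ 2 - x + 1) = 1)
    (hi : i * cv_legN x = cv_legD x) : u ^ 3 - 2 * u ^ 2 + u = 256 * i := by
  unfold cv_legN cv_legD at hi
  have h1 : u * (x ^ 2 - x) = 1 - u := by linear_combination hu
  have h2 : u ^ 3 * (x ^ 2 * (x - 1) ^ 2) = u * (1 - u) ^ 2 := by
    calc u ^ 3 * (x ^ 2 * (x - 1) ^ 2) = u * (u * (x ^ 2 - x)) ^ 2 := by ring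
      _ = u * (1 - u) ^ 2 := by rw [h1]
  have h3 : u ^ 3 * (i * (256 * (x ^ 2 - x + 1) ^ 3)) = 256 * i := by
    calc u ^ 3 * (i * (256 * (x ^ 2 - x + 1) ^ 3)) = 256 * i * (u * (x ^ 2 - x + 1)) ^ 3 := by ring
      _ = 256 * i := by rw [hu, one_pow, mul_one]
  rw [hi, h2] at h3
  linear_combination h3

/-- Legendre, chart `1/j`: `u = 1/(x² - x + 1)` is integral over `O[1/j]`. -/
theorem cv_leg_isIntegral_u {u x i : S} (hu : u * (x ^ 2 - x + 1) = 1)
    (hi : i * cv_legN x = cv_legD x) : IsIntegral (Algebra.adjoin O {i}) u := by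
  rcases subsingleton_or_nontrivial (Algebra.adjoin O {i}) with hs | hn
  · exact cv_isIntegral_of_subsingleton' u
  refine ⟨X ^ 3 - 2 * X ^ 2 + X - C (256 * cv_adjGen i), by monicity!, ?_⟩
  rw [← aeval_def]
  have hc : algebraMap (Algebra.adjoin O {i}) S (cv_adjGen i) = i := rfl
  simp only [map_sub, map_mul, map_pow, map_add, aeval_X, aeval_C, hc, map_ofNat]
  linear_combination cv_leg_u_rel hu hi

/-- Legendre, chart `1/j`: `v = x u` satisfies `v² - u v - (u - u²) = 0`. -/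
theorem cv_leg_v_rel {u x : S} (hu : u * (x ^ 2 - x + 1) = 1) :
    (x * u) ^ 2 - u * (x * u) - (u - u ^ 2) = 0 := by
  have h1 : u * (x ^ 2 - x) = 1 - u := by linear_combination hu
  calc (x * u) ^ 2 - u * (x * u) - (u - u ^ 2) = u * (u * (x ^ 2 - x)) - (u - u ^ 2) := by ring
    _ = 0 := by rw [h1]; ring

/-- Legendre, chart `1/j`: `x/(x² - x + 1)` is integral over `O[1/j]`. -/
theorem cv_leg_isIntegral_v {u x i : S} (hu : u * (x ^ 2 - x + 1) = 1)
    (hi : i * cv_legN x = cv_legD x) : IsIntegral (Algebra.adjoin O {i}) (x * u) := by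
  have hU : IsIntegral (Algebra.adjoin O {i}) u := cv_leg_isIntegral_u hu hi
  let uc : integralClosure (Algebra.adjoin O {i}) S := ⟨u, hU⟩
  have hv : IsIntegral (integralClosure (Algebra.adjoin O {i}) S) (x * u) := by
    rcases subsingleton_or_nontrivial (integralClosure (Algebra.adjoin O {i}) S) with hs | hn
    · exact cv_isIntegral_of_subsingleton' _
    refine ⟨X ^ 2 - C uc * X - C (uc - uc ^ 2), by monicity!, ?_⟩
    rw [← aeval_def]
    simp only [map_sub, map_mul, map_pow, aeval_X, aeval_C]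
    exact cv_leg_v_rel hu
  exact isIntegral_trans _ hv

/-- Hesse, chart `1/j`: if `x y = 1`, `i j = 1` and `N(x) = j D(x)` then
`y³ (y³ - 1)³ + 27 i (1 + 8 y³)³ = 0`. -/
theorem cv_hes_inv_rel {x y i j : S} (hxy : x * y = 1) (hij : i * j = 1)
    (h : cv_hesN x = j * cv_hesD x) :
    y ^ 3 * (y ^ 3 - 1) ^ 3 + 27 * i * (1 + 8 * y ^ 3) ^ 3 = 0 := by
  unfold cv_hesN cv_hesD at h
  have h1 : (1 + 8 * y ^ 3) * x ^ 3 = x ^ 3 + 8 := by
    calc (1 + 8 * y ^ 3) * x ^ 3 = x ^ 3 + 8 * (x * y) ^ 3 := by ring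
      _ = x ^ 3 + 8 := by rw [hxy]; ring
  have h2 : (y ^ 3 - 1) * x ^ 3 = 1 - x ^ 3 := by
    calc (y ^ 3 - 1) * x ^ 3 = (x * y) ^ 3 - x ^ 3 := by ring
      _ = 1 - x ^ 3 := by rw [hxy]; ring
  have hA : 27 * (1 + 8 * y ^ 3) ^ 3 * x ^ 12 = 27 * x ^ 3 * (x ^ 3 + 8) ^ 3 := by
    calc 27 * (1 + 8 * y ^ 3) ^ 3 * x ^ 12 = 27 * x ^ 3 * ((1 + 8 * y ^ 3) * x ^ 3) ^ 3 := by ring
      _ = 27 * x ^ 3 * (x ^ 3 + 8) ^ 3 := by rw [h1]
  have hB : y ^ 3 * (y ^ 3 - 1) ^ 3 * x ^ 12 = -(x ^ 3 - 1) ^ 3 := by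
    calc y ^ 3 * (y ^ 3 - 1) ^ 3 * x ^ 12 = (x * y) ^ 3 * ((y ^ 3 - 1) * x ^ 3) ^ 3 := by ring
      _ = -(x ^ 3 - 1) ^ 3 := by rw [hxy, h2]; ring
  have hx12 : (y ^ 3 * (y ^ 3 - 1) ^ 3 + 27 * i * (1 + 8 * y ^ 3) ^ 3) * x ^ 12 = 0 := by
    calc (y ^ 3 * (y ^ 3 - 1) ^ 3 + 27 * i * (1 + 8 * y ^ 3) ^ 3) * x ^ 12
        = y ^ 3 * (y ^ 3 - 1) ^ 3 * x ^ 12 + i * (27 * (1 + 8 * y ^ 3) ^ 3 * x ^ 12) := by ring
      _ = -(x ^ 3 - 1) ^ 3 + i * (j * (x ^ 3 - 1) ^ 3) := by rw [hA, hB, h]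
      _ = (i * j - 1) * (x ^ 3 - 1) ^ 3 := by ring
      _ = 0 := by rw [hij, sub_self, zero_mul]
  have hy12 : x ^ 12 * y ^ 12 = 1 := by rw [← mul_pow, hxy, one_pow]
  calc y ^ 3 * (y ^ 3 - 1) ^ 3 + 27 * i * (1 + 8 * y ^ 3) ^ 3
      = (y ^ 3 * (y ^ 3 - 1) ^ 3 + 27 * i * (1 + 8 * y ^ 3) ^ 3) * (x ^ 12 * y ^ 12) := by
        rw [hy12, mul_one]
    _ = (y ^ 3 * (y ^ 3 - 1) ^ 3 + 27 * i * (1 + 8 * y ^ 3) ^ 3) * x ^ 12 * y ^ 12 := by ring
    _ = 0 := by rw [hx12, zero_mul]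

/-- Hesse, chart `1/j`: the inverse of a solution of `N(x) = j D(x)` is integral over `O[1/j]`. -/
theorem cv_hes_isIntegral_inv {x y i j : S} (hxy : x * y = 1) (hij : i * j = 1)
    (h : cv_hesN x = j * cv_hesD x) : IsIntegral (Algebra.adjoin O {i}) y := by
  rcases subsingleton_or_nontrivial (Algebra.adjoin O {i}) with hs | hn
  · exact cv_isIntegral_of_subsingleton' y
  refine ⟨X ^ 3 * (X ^ 3 - 1) ^ 3 + C (27 * cv_adjGen i) * (1 + 8 * X ^ 3) ^ 3, by monicity!, ?_⟩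
  rw [← aeval_def]
  have hc : algebraMap (Algebra.adjoin O {i}) S (cv_adjGen i) = i := rfl
  simp only [map_sub, map_mul, map_pow, map_add, map_one, aeval_X, aeval_C, hc, map_ofNat]
  exact cv_hes_inv_rel hxy hij h

end RingLevel

section Base

variable {O S : Type*} [CommRing O] [CommRing S] [Algebra O S]

/-- elements of the base ring are integral over `O[t]`. -/
theorem cv_isIntegral_base (t : S) (r : O) :
    IsIntegral (Algebra.adjoin O {t}) (algebraMap O S r) := by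
  have : algebraMap O S r = algebraMap (Algebra.adjoin O {t}) S (algebraMap O _ r) := rfl
  rw [this]
  exact isIntegral_algebraMap

/-- every element of an `O`-subalgebra generated by elements integral over `O[t]` is integral
over `O[t]`. -/
theorem cv_isIntegral_adjoin (t : S) (s : Set S)
    (hs : ∀ y ∈ s, IsIntegral (Algebra.adjoin O {t}) y) :
    ∀ y ∈ Algebra.adjoin O s, IsIntegral (Algebra.adjoin O {t}) y := by
  intro y hy
  induction hy using Algebra.adjoin_induction with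
  | mem y hy => exact hs y hy
  | algebraMap r => exact cv_isIntegral_base t r
  | add y z _ _ hy hz => exact hy.add hz
  | mul y z _ _ hy hz => exact hy.mul hz

end Base

noncomputable section LegendreCharts

open RatFunc

variable {O K : Type*} [CommRing O] [Field K] [Algebra O K]

theorem cv_quad_ne_zero : ((X : RatFunc K) ^ 2 - X + 1) ≠ 0 := by
  intro h
  have h1 : algebraMap (Polynomial K) (RatFunc K)
      (Polynomial.X ^ 2 - Polynomial.X + 1) = 0 := by
    rw [map_add, map_sub, map_pow, algebraMap_X, map_one]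
    exact h
  have h2 : (Polynomial.X ^ 2 - Polynomial.X + 1 : Polynomial K) = 0 :=
    algebraMap_injective K (by rw [h1, map_zero])
  have := congrArg (fun p : Polynomial K => p.coeff 2) h2
  simp [Polynomial.coeff_X_pow, Polynomial.coeff_X, Polynomial.coeff_one] at this

/-- a conjugate of `λ` is a solution of `N(x) = j D(x)`. -/
theorem cv_leg_conj_rel (i : Fin 6) :
    cv_legN (cv_legS K i X) = cv_legj K * cv_legD (cv_legS K i X) := by
  have hj : cv_legJ (cv_legS K i X) = cv_legj K := by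
    have h := cv_legS_j K i
    unfold cv_legj at h ⊢
    rw [← AlgEquiv.coe_ringEquiv, ← RingEquiv.coe_toRingHom, cv_map_legJ] at h
    exact h
  have h0 : cv_legS K i X ≠ 0 := by
    intro h
    exact cv_X_ne_zero K ((map_eq_zero_iff _ (cv_legS K i).injective).1 h)
  have h1 : cv_legS K i X ≠ 1 := by
    intro h
    apply cv_X_ne_one K
    apply (cv_legS K i).injective
    rw [h, map_one]
  rw [← hj]
  exact cv_legJ_mul_legD h0 h1

/-- **Legendre, chart `j`**: all conjugates of `λ` are integral over `O[j]`. -/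
theorem cv_leg_int_conj (h2 : IsUnit (2 : O)) (i : Fin 6) :
    IsIntegral (Algebra.adjoin O {cv_legj K}) (cv_legS K i X) :=
  cv_leg_isIntegral h2 (cv_leg_conj_rel i)

theorem cv_leg_int_X (h2 : IsUnit (2 : O)) :
    IsIntegral (Algebra.adjoin O {cv_legj K}) (X : RatFunc K) :=
  cv_leg_int_conj h2 0

theorem cv_leg_int_inv (h2 : IsUnit (2 : O)) :
    IsIntegral (Algebra.adjoin O {cv_legj K}) (X : RatFunc K)⁻¹ := by
  have := cv_leg_int_conj (K := K) h2 2
  have h : cv_legS K 2 X = X⁻¹ := cv_legτ_X K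
  rwa [h] at this

theorem cv_leg_int_inv_one_sub (h2 : IsUnit (2 : O)) :
    IsIntegral (Algebra.adjoin O {cv_legj K}) (1 - (X : RatFunc K))⁻¹ := by
  have := cv_leg_int_conj (K := K) h2 3
  have h : cv_legS K 3 X = (1 - X)⁻¹ := by
    show cv_legσ K (cv_legτ K X) = _
    rw [cv_legτ_X, map_inv₀, cv_legσ_X]
  rwa [h] at this

/-- **Legendre, chart `j`**: the ring `O[λ, 1/λ, 1/(1-λ)]` is integral over `O[j]`. -/
theorem cv_leg_int_ring (h2 : IsUnit (2 : O)) :
    ∀ y ∈ Algebra.adjoin O ({X, X⁻¹, (1 - X)⁻¹} : Set (RatFunc K)),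
      IsIntegral (Algebra.adjoin O {cv_legj K}) y := by
  apply cv_isIntegral_adjoin
  intro y hy
  rcases hy with rfl | rfl | rfl
  · exact cv_leg_int_X h2
  · exact cv_leg_int_inv h2
  · exact cv_leg_int_inv_one_sub h2

theorem cv_legN_X_ne_zero (h2 : (2 : K) ≠ 0) : cv_legN (X : RatFunc K) ≠ 0 := by
  unfold cv_legN
  have h256 : (256 : RatFunc K) ≠ 0 := by
    have : (256 : RatFunc K) = 2 ^ 8 := by norm_num
    rw [this]
    apply pow_ne_zero
    intro h
    apply h2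
    apply (algebraMap K (RatFunc K)).injective
    rw [map_zero, map_ofNat]
    exact h
  exact mul_ne_zero h256 (pow_ne_zero 3 cv_quad_ne_zero)

theorem cv_leg_inv_rel (h2 : (2 : K) ≠ 0) :
    (cv_legj K)⁻¹ * cv_legN (X : RatFunc K) = cv_legD (X : RatFunc K) := by
  unfold cv_legj cv_legJ
  rw [inv_div, div_mul_cancel₀ _ (cv_legN_X_ne_zero h2)]

/-- **Legendre, chart `1/j`**: `1/(λ² - λ + 1)` is integral over `O[1/j]`. -/
theorem cv_leg_int_u (h2 : (2 : K) ≠ 0) :
    IsIntegral (Algebra.adjoin O {(cv_legj K)⁻¹}) ((X : RatFunc K) ^ 2 - X + 1)⁻¹ :=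
  cv_leg_isIntegral_u (inv_mul_cancel₀ cv_quad_ne_zero) (cv_leg_inv_rel h2)

/-- **Legendre, chart `1/j`**: `λ/(λ² - λ + 1)` is integral over `O[1/j]`. -/
theorem cv_leg_int_v (h2 : (2 : K) ≠ 0) :
    IsIntegral (Algebra.adjoin O {(cv_legj K)⁻¹})
      ((X : RatFunc K) * ((X : RatFunc K) ^ 2 - X + 1)⁻¹) :=
  cv_leg_isIntegral_v (inv_mul_cancel₀ cv_quad_ne_zero) (cv_leg_inv_rel h2)

/-- **Legendre, chart `1/j`**: the ring `O[u, λu]`, `u = 1/(λ² - λ + 1)`, is integral over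
`O[1/j]`. -/
theorem cv_leg_int_ring' (h2 : (2 : K) ≠ 0) :
    ∀ y ∈ Algebra.adjoin O ({((X : RatFunc K) ^ 2 - X + 1)⁻¹,
        (X : RatFunc K) * ((X : RatFunc K) ^ 2 - X + 1)⁻¹} : Set (RatFunc K)),
      IsIntegral (Algebra.adjoin O {(cv_legj K)⁻¹}) y := by
  apply cv_isIntegral_adjoin
  intro y hy
  rcases hy with rfl | rfl
  · exact cv_leg_int_u h2
  · exact cv_leg_int_v h2

end LegendreCharts

noncomputable section HesseCharts

open RatFunc

variable {O K : Type*} [CommRing O] [Field K] [Algebra O K] {ω : O}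
  (hω : (algebraMap O K ω) ^ 2 + algebraMap O K ω + 1 = 0) (h3 : (3 : K) ≠ 0)

/-- a conjugate of `μ` is a solution of `N(x) = j D(x)`. -/
theorem cv_hes_conj_rel (i : cv_hesI) :
    cv_hesN (cv_hesS hω h3 i X) = cv_hesj K * cv_hesD (cv_hesS hω h3 i X) := by
  have hj : cv_hesJ (cv_hesS hω h3 i X) = cv_hesj K := by
    have h := cv_hesS_j hω h3 i
    unfold cv_hesj at h ⊢
    rw [← AlgEquiv.coe_ringEquiv, ← RingEquiv.coe_toRingHom, cv_map_hesJ] at h
    exact h
  have h1 : cv_hesS hω h3 i X ^ 3 ≠ 1 := by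
    intro h
    apply cv_X_pow_three_ne_one (K := K)
    apply (cv_hesS hω h3 i).injective
    rw [map_pow, h, map_one]
  rw [← hj]
  exact cv_hesJ_mul_hesD h1

/-- **Hesse, chart `j`**: all conjugates of `μ` are integral over `O[j]`. -/
theorem cv_hes_int_conj (h3O : IsUnit (3 : O)) (i : cv_hesI) :
    IsIntegral (Algebra.adjoin O {cv_hesj K}) (cv_hesS hω h3 i X) :=
  cv_hes_isIntegral h3O (cv_hes_conj_rel hω h3 i)

include hω h3 in
theorem cv_hes_int_X (h3O : IsUnit (3 : O)) :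
    IsIntegral (Algebra.adjoin O {cv_hesj K}) (X : RatFunc K) := by
  have := cv_hes_int_conj hω h3 h3O (Sum.inl 0)
  rw [cv_hesS_inl_X] at this
  have h1 : (C (cv_pw (algebraMap O K ω) 0) : RatFunc K) = 1 := by
    show C (1 : K) = 1
    exact map_one _
  rwa [h1, one_mul] at this

include h3 in
omit hω in
theorem cv_hesj_ne_zero : cv_hesj K ≠ 0 := by
  unfold cv_hesj cv_hesJ
  apply div_ne_zero
  · unfold cv_hesN
    have h27 : (27 : RatFunc K) ≠ 0 := by
      have : (27 : RatFunc K) = 3 ^ 3 := by norm_num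
      rw [this]
      exact pow_ne_zero 3 (cv_three_ne_zero h3)
    have h8 : (X : RatFunc K) ^ 3 + 8 ≠ 0 := by
      intro h
      have h1 : algebraMap (Polynomial K) (RatFunc K) (Polynomial.X ^ 3 + 8) = 0 := by
        rw [map_add, map_pow, algebraMap_X, map_ofNat]
        exact h
      have h2 : (Polynomial.X ^ 3 + 8 : Polynomial K) = 0 :=
        algebraMap_injective K (by rw [h1, map_zero])
      have := congrArg (fun p : Polynomial K => p.coeff 3) h2
      simp [Polynomial.coeff_X_pow] at this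
    exact mul_ne_zero (mul_ne_zero h27 (pow_ne_zero 3 RatFunc.X_ne_zero)) (pow_ne_zero 3 h8)
  · exact cv_hesD_ne_zero cv_X_pow_three_ne_one

/-- **Hesse, chart `1/j`**: the inverses of all conjugates of `μ` are integral over `O[1/j]`. -/
theorem cv_hes_int_conj_inv (i : cv_hesI) :
    IsIntegral (Algebra.adjoin O {(cv_hesj K)⁻¹}) (cv_hesS hω h3 i X)⁻¹ := by
  have h0 : cv_hesS hω h3 i X ≠ 0 := by
    intro h
    exact RatFunc.X_ne_zero ((map_eq_zero_iff _ (cv_hesS hω h3 i).injective).1 h)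
  exact cv_hes_isIntegral_inv (mul_inv_cancel₀ h0) (inv_mul_cancel₀ (cv_hesj_ne_zero h3))
    (cv_hes_conj_rel hω h3 i)

include hω h3 in
theorem cv_hes_int_inv_X :
    IsIntegral (Algebra.adjoin O {(cv_hesj K)⁻¹}) (X : RatFunc K)⁻¹ := by
  have := cv_hes_int_conj_inv (O := O) hω h3 (Sum.inl 0)
  rw [cv_hesS_inl_X] at this
  have h1 : (C (cv_pw (algebraMap O K ω) 0) : RatFunc K) = 1 := by
    show C (1 : K) = 1
    exact map_one _
  rwa [h1, one_mul] at this

/-- the inverse of `3` in `K(μ)`, coming from `O`. -/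
def cv_third (h3O : IsUnit (3 : O)) : RatFunc K := algebraMap O (RatFunc K) ↑(h3O.unit⁻¹)

omit hω h3 in
theorem cv_three_mul_third (h3O : IsUnit (3 : O)) : (3 : RatFunc K) * cv_third h3O = 1 := by
  unfold cv_third
  have h : (3 : O) * ↑(h3O.unit⁻¹) = 1 := by
    have := h3O.unit.mul_inv
    rwa [IsUnit.unit_spec] at this
  have := congrArg (algebraMap O (RatFunc K)) h
  rwa [map_mul, map_one, map_ofNat] at this

omit hω h3 in
theorem cv_third_int (h3O : IsUnit (3 : O)) (t : RatFunc K) :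
    IsIntegral (Algebra.adjoin O {t}) (cv_third (K := K) h3O) :=
  cv_isIntegral_base t _

include hω in
/-- `ωᵇ μ - 1 ≠ 0`. -/
theorem cv_hes_lin_sub_ne_zero (b : Fin 3) :
    C (cv_pw (algebraMap O K ω) b) * (X : RatFunc K) - 1 ≠ 0 := by
  have := cv_lin_ne_zero (K := K) (c := cv_pw (algebraMap O K ω) b) (d := -1)
    (Or.inl (cv_pw_ne_zero hω b))
  rwa [map_neg, map_one, ← sub_eq_add_neg] at this

include hω in
/-- `ωᵇ μ + 2 ≠ 0`. -/
theorem cv_hes_lin_add_ne_zero (b : Fin 3) :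
    C (cv_pw (algebraMap O K ω) b) * (X : RatFunc K) + 2 ≠ 0 := by
  have := cv_lin_ne_zero (K := K) (c := cv_pw (algebraMap O K ω) b) (d := 2)
    (Or.inl (cv_pw_ne_zero hω b))
  rwa [map_ofNat] at this

include hω h3 in
/-- **Hesse, chart `j`**: `1/(ωᵇ μ - 1)` is integral over `O[j]`. -/
theorem cv_hes_int_inv_lin_sub (h3O : IsUnit (3 : O)) (b : Fin 3) :
    IsIntegral (Algebra.adjoin O {cv_hesj K})
      (C (cv_pw (algebraMap O K ω) b) * (X : RatFunc K) - 1)⁻¹ := by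
  have hT := cv_hes_int_conj hω h3 h3O (Sum.inr (0, b))
  rw [cv_hesS_inr_X] at hT
  have h1 : (C (cv_pw (algebraMap O K ω) 0) : RatFunc K) = 1 := by
    show C (1 : K) = 1
    exact map_one _
  rw [h1, one_mul] at hT
  have hne := cv_hes_lin_sub_ne_zero hω b
  have hne' := cv_hes_lin_sub_ne_zero (O := O) (K := K) hω b
  have key : (C (cv_pw (algebraMap O K ω) b) * (X : RatFunc K) - 1)⁻¹ =
      ((C (cv_pw (algebraMap O K ω) b) * X + 2) / (C (cv_pw (algebraMap O K ω) b) * X - 1) - 1) *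
        cv_third h3O := by
    have h3' := cv_three_mul_third (K := K) h3O
    field_simp
    linear_combination (-1 : RatFunc K) * h3'
  rw [key]
  exact (hT.sub isIntegral_one).mul (cv_third_int h3O _)

include hω h3 in
/-- **Hesse, chart `1/j`**: `1/(ωᵇ μ + 2)` is integral over `O[1/j]`. -/
theorem cv_hes_int_inv_lin_add (h3O : IsUnit (3 : O)) (b : Fin 3) :
    IsIntegral (Algebra.adjoin O {(cv_hesj K)⁻¹})
      (C (cv_pw (algebraMap O K ω) b) * (X : RatFunc K) + 2)⁻¹ := by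
  have hT := cv_hes_int_conj_inv (O := O) hω h3 (Sum.inr (0, b))
  rw [cv_hesS_inr_X] at hT
  have h1 : (C (cv_pw (algebraMap O K ω) 0) : RatFunc K) = 1 := by
    show C (1 : K) = 1
    exact map_one _
  rw [h1, one_mul] at hT
  have hne := cv_hes_lin_sub_ne_zero (O := O) (K := K) hω b
  have hne' := cv_hes_lin_add_ne_zero (O := O) (K := K) hω b
  have key : (C (cv_pw (algebraMap O K ω) b) * (X : RatFunc K) + 2)⁻¹ =
      (1 - ((C (cv_pw (algebraMap O K ω) b) * X + 2) /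
        (C (cv_pw (algebraMap O K ω) b) * X - 1))⁻¹) * cv_third h3O := by
    have h3' := cv_three_mul_third (K := K) h3O
    rw [inv_div]
    field_simp
    linear_combination (-1 : RatFunc K) * h3'
  rw [key]
  exact (isIntegral_one.sub hT).mul (cv_third_int h3O _)

include hω in
omit h3 in
theorem cv_hes_prod_sub :
    (C (cv_pw (algebraMap O K ω) 0) * (X : RatFunc K) - 1) *
      (C (cv_pw (algebraMap O K ω) 1) * X - 1) * (C (cv_pw (algebraMap O K ω) 2) * X - 1) =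
      X ^ 3 - 1 := by
  have hC : (C (algebraMap O K ω) : RatFunc K) ^ 2 + C (algebraMap O K ω) + 1 = 0 := by
    rw [← map_pow, ← map_add, ← map_one (C (K := K)), ← map_add, hω, map_zero]
  show (C (1 : K) * X - 1) * (C (algebraMap O K ω) * X - 1) *
    (C ((algebraMap O K ω) ^ 2) * X - 1) = _
  rw [map_one, map_pow]
  linear_combination ((X : RatFunc K) ^ 3 * (C (algebraMap O K ω) - 1) -
    C (algebraMap O K ω) * X ^ 2 + X) * hC

include hω in
omit h3 in
theorem cv_hes_prod_add :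
    (C (cv_pw (algebraMap O K ω) 0) * (X : RatFunc K) + 2) *
      (C (cv_pw (algebraMap O K ω) 1) * X + 2) * (C (cv_pw (algebraMap O K ω) 2) * X + 2) =
      X ^ 3 + 8 := by
  have hC : (C (algebraMap O K ω) : RatFunc K) ^ 2 + C (algebraMap O K ω) + 1 = 0 := by
    rw [← map_pow, ← map_add, ← map_one (C (K := K)), ← map_add, hω, map_zero]
  show (C (1 : K) * X + 2) * (C (algebraMap O K ω) * X + 2) *
    (C ((algebraMap O K ω) ^ 2) * X + 2) = _
  rw [map_one, map_pow]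
  linear_combination ((X : RatFunc K) ^ 3 * (C (algebraMap O K ω) - 1) +
    2 * C (algebraMap O K ω) * X ^ 2 + 4 * X) * hC

include hω h3 in
/-- **Hesse, chart `j`**: `1/(μ³ - 1)` is integral over `O[j]`. -/
theorem cv_hes_int_inv_cube_sub (h3O : IsUnit (3 : O)) :
    IsIntegral (Algebra.adjoin O {cv_hesj K}) ((X : RatFunc K) ^ 3 - 1)⁻¹ := by
  rw [← cv_hes_prod_sub (O := O) hω, mul_inv, mul_inv]
  exact ((cv_hes_int_inv_lin_sub hω h3 h3O 0).mul (cv_hes_int_inv_lin_sub hω h3 h3O 1)).mul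
    (cv_hes_int_inv_lin_sub hω h3 h3O 2)

include hω h3 in
/-- **Hesse, chart `1/j`**: `1/(μ³ + 8)` is integral over `O[1/j]`. -/
theorem cv_hes_int_inv_cube_add (h3O : IsUnit (3 : O)) :
    IsIntegral (Algebra.adjoin O {(cv_hesj K)⁻¹}) ((X : RatFunc K) ^ 3 + 8)⁻¹ := by
  rw [← cv_hes_prod_add (O := O) hω, mul_inv, mul_inv]
  exact ((cv_hes_int_inv_lin_add hω h3 h3O 0).mul (cv_hes_int_inv_lin_add hω h3 h3O 1)).mul
    (cv_hes_int_inv_lin_add hω h3 h3O 2)

include hω h3 in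
/-- **Hesse, chart `j`**: the ring `O[μ, 1/(μ³ - 1)]` is integral over `O[j]`. -/
theorem cv_hes_int_ring (h3O : IsUnit (3 : O)) :
    ∀ y ∈ Algebra.adjoin O ({X, ((X : RatFunc K) ^ 3 - 1)⁻¹} : Set (RatFunc K)),
      IsIntegral (Algebra.adjoin O {cv_hesj K}) y := by
  apply cv_isIntegral_adjoin
  intro y hy
  rcases hy with rfl | rfl
  · exact cv_hes_int_X hω h3 h3O
  · exact cv_hes_int_inv_cube_sub hω h3 h3O

include hω h3 in
/-- **Hesse, chart `1/j`**: the ring `O[1/μ, 1/(μ³ + 8)]` is integral over `O[1/j]`. -/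
theorem cv_hes_int_ring' (h3O : IsUnit (3 : O)) :
    ∀ y ∈ Algebra.adjoin O ({(X : RatFunc K)⁻¹, ((X : RatFunc K) ^ 3 + 8)⁻¹} :
        Set (RatFunc K)),
      IsIntegral (Algebra.adjoin O {(cv_hesj K)⁻¹}) y := by
  apply cv_isIntegral_adjoin
  intro y hy
  rcases hy with rfl | rfl
  · exact cv_hes_int_inv_X (O := O) hω h3
  · exact cv_hes_int_inv_cube_add hω h3 h3O

end HesseCharts

end Fermat.Agent.JT3
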