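import Fermat.Agent.JT3.Cover.RamPlace
import Fermat.Agent.JT3.Cover.Integral

/-!
# Ramification of the Legendre and Hesse covers over `j = ∞` (JT3 route (X); prefix `cv_`)

`t = 1/j`.  Legendre: with `u = 1/(λ² - λ + 1)`, `v = λ u` (integral over `A`),
`256 t = u (u - 1)²` and `v² = u (1 + v - u)`, so `256 t (1 + v - u) = (v (u - 1))²` (at the
points `λ = ∞`, where `u ∈ P`) and `256 t u = (u (u - 1))²` (at `λ = 0, 1`): `2 ∣ e`.
Hesse: with `y = 1/μ`, `27 t (1 + 8 y³)³ = (-y (y³ - 1))³`: `3 ∣ e`.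
-/

set_option autoImplicit false

namespace Fermat.Agent.JT3

section AKLB

variable {A L B : Type*} [CommRing A] [Field L] [Algebra A L] [CommRing B] [IsDedekindDomain B]
  [Algebra A B] [Algebra B L] [IsScalarTower A B L] [IsIntegralClosure B A L]

/-- **Legendre cover over `j = ∞`**: `2 ∣ e(P | A)` for every prime `P` of the integral closure
`B` of `A` in `L ∋ λ` lying over `(t)`, when `t · 256 (λ² - λ + 1)³ = λ² (λ - 1)²`. -/
theorem cv_leg_ram_infty (h2 : IsUnit (2 : A)) {lam : L} {t : A} (ht : algebraMap A L t ≠ 0)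
    (hrel : algebraMap A L t * cv_legN lam = cv_legD lam) (P : Ideal B) [P.IsPrime]
    (hp : P.under A = Ideal.span {t}) : 2 ∣ P.ramificationIdx A := by
  have hinj : Function.Injective (algebraMap B L) := IsIntegralClosure.algebraMap_injective B A L
  have hq : lam ^ 2 - lam + 1 ≠ 0 := by
    intro h0
    have h1 : cv_legD lam = 0 := by
      rw [← hrel]
      unfold cv_legN
      rw [h0]
      ring
    unfold cv_legD at h1
    rcases mul_eq_zero.1 h1 with h | h
    · have : lam = 0 := by simpa using h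
      rw [this] at h0
      norm_num at h0
    · have : lam = 1 := by
        have := pow_eq_zero_iff (two_ne_zero) |>.1 h
        exact sub_eq_zero.1 this
      rw [this] at h0
      norm_num at h0
  have hu : (lam ^ 2 - lam + 1)⁻¹ * (lam ^ 2 - lam + 1) = 1 := inv_mul_cancel₀ hq
  have hUint : IsIntegral A (lam ^ 2 - lam + 1)⁻¹ :=
    cv_isIntegral_of_adjoin_algebraMap t (cv_leg_isIntegral_u hu hrel)
  have hVint : IsIntegral A (lam * (lam ^ 2 - lam + 1)⁻¹) :=
    cv_isIntegral_of_adjoin_algebraMap t (cv_leg_isIntegral_v hu hrel)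
  set u : B := IsIntegralClosure.mk' B _ hUint with hudef
  set v : B := IsIntegralClosure.mk' B _ hVint with hvdef
  have hmu : algebraMap B L u = (lam ^ 2 - lam + 1)⁻¹ := IsIntegralClosure.algebraMap_mk' B _ hUint
  have hmv : algebraMap B L v = lam * (lam ^ 2 - lam + 1)⁻¹ :=
    IsIntegralClosure.algebraMap_mk' B _ hVint
  have h1 : u ^ 3 - 2 * u ^ 2 + u = 256 * algebraMap A B t := by
    apply hinj
    have := cv_leg_u_rel hu hrel
    simp only [map_sub, map_add, map_mul, map_pow, map_ofNat, hmu,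
      ← IsScalarTower.algebraMap_apply A B L]
    exact this
  have h2' : v ^ 2 - u * v - (u - u ^ 2) = 0 := by
    apply hinj
    have := cv_leg_v_rel hu
    simp only [map_sub, map_mul, map_pow, hmu, hmv, map_zero]
    exact this
  have hc256 : IsUnit (256 : B) := by
    have := cv_isUnit_ofNat_pow (B := B) h2 8
    norm_num at this
    exact this
  have h256 : (256 : B) ∉ P := cv_notMem_of_isUnit P hc256
  have h1P : (1 : B) ∉ P := cv_notMem_of_isUnit P isUnit_one
  have htB : algebraMap A B t ≠ 0 := cv_algebraMap_ne_zero ht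
  by_cases huP : u ∈ P
  · -- points above `λ = ∞`
    have hvP : v ∈ P := by
      have : v ^ 2 ∈ P := by
        have h3 : v ^ 2 = u * (v + 1 - u) := by linear_combination h2'
        rw [h3]
        exact P.mul_mem_right _ huP
      exact (inferInstance : P.IsPrime).mem_of_pow_mem 2 this
    have hd : 256 * (1 + v - u) ∉ P := by
      intro hd
      apply h256
      have h3 : (256 : B) = 256 * (1 + v - u) - 256 * v + 256 * u := by ring
      rw [h3]
      exact P.add_mem (P.sub_mem hd (P.mul_mem_left _ hvP)) (P.mul_mem_left _ huP)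
    refine cv_ram_dvd P t hp htB 2 (v * (u - 1)) 1 (256 * (1 + v - u)) h1P hd ?_
    linear_combination -(1 + v - u) * h1 - (u - 1) ^ 2 * h2'
  · -- points above `λ = 0, 1`
    have hd : 256 * u ∉ P := by
      intro hd
      rcases (inferInstance : P.IsPrime).mem_or_mem hd with h | h
      · exact h256 h
      · exact huP h
    refine cv_ram_dvd P t hp htB 2 (u * (u - 1)) 1 (256 * u) h1P hd ?_
    linear_combination -u * h1

/-- **Hesse cover over `j = ∞`**: `3 ∣ e(P | A)` for every prime `P` of the integral closure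
`B` of `A` in `L ∋ μ` lying over `(t)`, when `t · 27 μ³ (μ³ + 8)³ = (μ³ - 1)³`. -/
theorem cv_hes_ram_infty (h3 : IsUnit (3 : A)) {mu : L} {t : A} (ht : algebraMap A L t ≠ 0)
    (hrel : algebraMap A L t * cv_hesN mu = cv_hesD mu) (P : Ideal B) [P.IsPrime]
    (hp : P.under A = Ideal.span {t}) : 3 ∣ P.ramificationIdx A := by
  have hinj : Function.Injective (algebraMap B L) := IsIntegralClosure.algebraMap_injective B A L
  have hmu0 : mu ≠ 0 := by
    rintro rfl
    have := hrel
    simp only [cv_hesN, cv_hesD] at this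
    norm_num at this
  have hxy : mu * mu⁻¹ = 1 := mul_inv_cancel₀ hmu0
  have hij : algebraMap A L t * (algebraMap A L t)⁻¹ = 1 := mul_inv_cancel₀ ht
  have hrel' : cv_hesN mu = (algebraMap A L t)⁻¹ * cv_hesD mu := by
    rw [← hrel, ← mul_assoc, inv_mul_cancel₀ ht, one_mul]
  have hYint : IsIntegral A mu⁻¹ :=
    cv_isIntegral_of_adjoin_algebraMap t (cv_hes_isIntegral_inv hxy hij hrel')
  set y : B := IsIntegralClosure.mk' B _ hYint with hydef
  have hmy : algebraMap B L y = mu⁻¹ := IsIntegralClosure.algebraMap_mk' B _ hYint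
  have h1 : y ^ 3 * (y ^ 3 - 1) ^ 3 + 27 * algebraMap A B t * (1 + 8 * y ^ 3) ^ 3 = 0 := by
    apply hinj
    have := cv_hes_inv_rel hxy hij hrel'
    simp only [map_sub, map_add, map_mul, map_pow, map_ofNat, map_one, hmy, map_zero,
      ← IsScalarTower.algebraMap_apply A B L]
    exact this
  have hc27 : IsUnit (27 : B) := by
    have := cv_isUnit_ofNat_pow (B := B) h3 3
    norm_num at this
    exact this
  have hc9 : IsUnit (9 : B) := by
    have := cv_isUnit_ofNat_pow (B := B) h3 2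
    norm_num at this
    exact this
  have h27 : (27 : B) ∉ P := cv_notMem_of_isUnit P hc27
  have h9 : (9 : B) ∉ P := cv_notMem_of_isUnit P hc9
  have h1P : (1 : B) ∉ P := cv_notMem_of_isUnit P isUnit_one
  have htB : algebraMap A B t ≠ 0 := cv_algebraMap_ne_zero ht
  have htP : algebraMap A B t ∈ P := by
    have : t ∈ P.under A := by rw [hp]; exact Ideal.mem_span_singleton_self t
    exact this
  have hkey : algebraMap A B t * (27 * (1 + 8 * y ^ 3) ^ 3) = 1 * (-(y * (y ^ 3 - 1))) ^ 3 := by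
    linear_combination h1
  have hd : 27 * (1 + 8 * y ^ 3) ^ 3 ∉ P := by
    intro hd
    have hd' : 1 + 8 * y ^ 3 ∈ P := by
      rcases (inferInstance : P.IsPrime).mem_or_mem hd with h | h
      · exact absurd h h27
      · exact (inferInstance : P.IsPrime).mem_of_pow_mem 3 h
    have hg3 : (-(y * (y ^ 3 - 1))) ^ 3 ∈ P := by
      have : algebraMap A B t * (27 * (1 + 8 * y ^ 3) ^ 3) ∈ P := P.mul_mem_right _ htP
      rw [hkey, one_mul] at this
      exact this
    have hg : y * (y ^ 3 - 1) ∈ P := by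
      have := (inferInstance : P.IsPrime).mem_of_pow_mem 3 hg3
      simpa using this
    rcases (inferInstance : P.IsPrime).mem_or_mem hg with h | h
    · apply h1P
      have h3' : (1 : B) = (1 + 8 * y ^ 3) - 8 * y ^ 2 * y := by ring
      rw [h3']
      exact P.sub_mem hd' (P.mul_mem_left _ h)
    · apply h9
      have h3' : (9 : B) = (1 + 8 * y ^ 3) - 8 * (y ^ 3 - 1) := by ring
      rw [h3']
      exact P.sub_mem hd' (P.mul_mem_left _ h)
  exact cv_ram_dvd P t hp htB 3 (-(y * (y ^ 3 - 1))) 1 (27 * (1 + 8 * y ^ 3) ^ 3) h1P hd hkey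

end AKLB

section Abstract

variable {L A K' E B : Type*} [Field L] [CommRing A] [IsDomain A] [IsDiscreteValuationRing A]
  [Field K'] [Field E] [Algebra L A] [Algebra A K'] [Algebra L K'] [IsScalarTower L A K']
  [IsFractionRing A K'] [Algebra A E] [Algebra K' E] [IsScalarTower A K' E]
  [CommRing B] [IsDedekindDomain B] [Algebra A B] [Algebra B E] [IsScalarTower A B E]
  [IsIntegralClosure B A E]

/-- **(C4) Legendre over `j' = ∞`**, abstract form (`t = 1/j'`). -/
theorem cv_leg_ram_infty_gen (h2 : (2 : L) ≠ 0) {t : A} (ht : ¬ IsUnit t)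
    (hgen : IntermediateField.adjoin L {algebraMap A K' t} = ⊤) {lam : E}
    (hrel : algebraMap A E t * cv_legN lam = cv_legD lam) (P : Ideal B) [P.IsPrime]
    (hP : P ≠ ⊥) : 2 ∣ P.ramificationIdx A := by
  have hirr : Irreducible t := cv_irreducible_of_adjoin_eq_top (L := L) (K := K') ht hgen
  exact cv_leg_ram_infty (cv_isUnit_ofNat_of_field 2 h2)
    (cv_algebraMap_ne_zero' K' hirr.ne_zero) hrel P (cv_under_eq_span' E P hP hirr)

/-- **Hesse over `j' = ∞`**, abstract form (`t = 1/j'`). -/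
theorem cv_hes_ram_infty_gen (h3 : (3 : L) ≠ 0) {t : A} (ht : ¬ IsUnit t)
    (hgen : IntermediateField.adjoin L {algebraMap A K' t} = ⊤) {mu : E}
    (hrel : algebraMap A E t * cv_hesN mu = cv_hesD mu) (P : Ideal B) [P.IsPrime]
    (hP : P ≠ ⊥) : 3 ∣ P.ramificationIdx A := by
  have hirr : Irreducible t := cv_irreducible_of_adjoin_eq_top (L := L) (K := K') ht hgen
  exact cv_hes_ram_infty (cv_isUnit_ofNat_of_field 3 h3)
    (cv_algebraMap_ne_zero' K' hirr.ne_zero) hrel P (cv_under_eq_span' E P hP hirr)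

end Abstract

section SubringForm

variable {L K' E : Type*} [Field L] [Field K'] [Field E] [Algebra L K'] [Algebra K' E]
  (V0 : Subring K') [IsDiscreteValuationRing V0] [IsFractionRing V0 K']

/-- inverting a generator. -/
theorem cv_adjoin_inv {K : Type*} [Field K] [Algebra L K] {x : K}
    (hgen : IntermediateField.adjoin L {x} = ⊤) : IntermediateField.adjoin L {x⁻¹} = ⊤ := by
  rw [eq_top_iff, ← hgen, IntermediateField.adjoin_simple_le_iff]
  have h1 : x⁻¹ ∈ IntermediateField.adjoin L {x⁻¹} := IntermediateField.mem_adjoin_simple_self L _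
  have := inv_mem h1
  rwa [inv_inv] at this

/-- **(C4) Legendre over `j' = ∞`**, `Subring` form: `1/j' ∈ 𝔪_V0`. -/
theorem cv_leg_ram_infty_subring (h2 : (2 : L) ≠ 0) (hL : ∀ a : L, algebraMap L K' a ∈ V0)
    {j' : K'} (hgen : IntermediateField.adjoin L {j'} = ⊤) (hj : j'⁻¹ ∈ V0)
    (hjm : ¬ IsUnit (⟨j'⁻¹, hj⟩ : V0)) (hj0 : j' ≠ 0) {lam : E}
    (hrel : cv_legN lam = algebraMap K' E j' * cv_legD lam)
    [IsDedekindDomain (integralClosure V0 E)]
    (P : Ideal (integralClosure V0 E)) [P.IsPrime] (hP : P ≠ ⊥) :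
    2 ∣ P.ramificationIdx V0 := by
  let _ : Algebra L V0 := ((algebraMap L K').codRestrict V0 hL).toAlgebra
  have : IsScalarTower L V0 K' := IsScalarTower.of_algebraMap_eq (fun _ => rfl)
  have hrel' : algebraMap V0 E (⟨j'⁻¹, hj⟩ : V0) * cv_legN lam = cv_legD lam := by
    have h1 : algebraMap V0 E (⟨j'⁻¹, hj⟩ : V0) = algebraMap K' E j'⁻¹ := rfl
    have h0 : algebraMap K' E j' ≠ 0 := (map_ne_zero _).2 hj0
    rw [h1, hrel, map_inv₀, ← mul_assoc, inv_mul_cancel₀ h0, one_mul]
  exact cv_leg_ram_infty_gen (L := L) (K' := K') (t := (⟨j'⁻¹, hj⟩ : V0)) h2 hjm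
    (cv_adjoin_inv hgen) hrel' P hP

/-- **Hesse over `j' = ∞`**, `Subring` form: `1/j' ∈ 𝔪_V0`. -/
theorem cv_hes_ram_infty_subring (h3 : (3 : L) ≠ 0) (hL : ∀ a : L, algebraMap L K' a ∈ V0)
    {j' : K'} (hgen : IntermediateField.adjoin L {j'} = ⊤) (hj : j'⁻¹ ∈ V0)
    (hjm : ¬ IsUnit (⟨j'⁻¹, hj⟩ : V0)) (hj0 : j' ≠ 0) {mu : E}
    (hrel : cv_hesN mu = algebraMap K' E j' * cv_hesD mu)
    [IsDedekindDomain (integralClosure V0 E)]
    (P : Ideal (integralClosure V0 E)) [P.IsPrime] (hP : P ≠ ⊥) :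
    3 ∣ P.ramificationIdx V0 := by
  let _ : Algebra L V0 := ((algebraMap L K').codRestrict V0 hL).toAlgebra
  have : IsScalarTower L V0 K' := IsScalarTower.of_algebraMap_eq (fun _ => rfl)
  have hrel' : algebraMap V0 E (⟨j'⁻¹, hj⟩ : V0) * cv_hesN mu = cv_hesD mu := by
    have h1 : algebraMap V0 E (⟨j'⁻¹, hj⟩ : V0) = algebraMap K' E j'⁻¹ := rfl
    have h0 : algebraMap K' E j' ≠ 0 := (map_ne_zero _).2 hj0
    rw [h1, hrel, map_inv₀, ← mul_assoc, inv_mul_cancel₀ h0, one_mul]
  exact cv_hes_ram_infty_gen (L := L) (K' := K') (t := (⟨j'⁻¹, hj⟩ : V0)) h3 hjm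
    (cv_adjoin_inv hgen) hrel' P hP

end SubringForm

end Fermat.Agent.JT3
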