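import Mathlib

/-!
# The Legendre and Hesse covers of the `j`-line: polynomial identities (JT3 route (X); prefix `cv_`)

* Legendre: `j = 256 (λ² - λ + 1)³ / (λ² (λ - 1)²)`, invariant under `λ ↦ 1 - λ`, `λ ↦ 1/λ`
  (group `S₃`), `j - 1728 = 64 ((λ - 2)(2λ - 1)(λ + 1))² / (λ² (λ - 1)²)`;
* Hesse: `j = 27 μ³ (μ³ + 8)³ / (μ³ - 1)³`, invariant under `μ ↦ ω μ` (`ω³ = 1`),
  `μ ↦ (μ + 2)/(μ - 1)` (group `A₄`), `j - 1728 = 27 (μ⁶ - 20 μ³ - 8)² / (μ³ - 1)³`.

Everything is stated for numerators and denominators in an arbitrary commutative ring (so that it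
can be used over a discrete valuation ring and over its residue field), then for the quotient in a
field.  Integrality of `λ` (resp. `μ`) over `O[j]` when `2` (resp. `3`) is a unit.
-/

set_option autoImplicit false

namespace Fermat.Agent.JT3

open Polynomial

section Legendre

variable {S : Type*} [CommRing S]

/-- numerator of the Legendre `j`-function. -/
def cv_legN (x : S) : S := 256 * (x ^ 2 - x + 1) ^ 3

/-- denominator of the Legendre `j`-function. -/
def cv_legD (x : S) : S := x ^ 2 * (x - 1) ^ 2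

theorem cv_legN_one_sub (x : S) : cv_legN (1 - x) = cv_legN x := by
  unfold cv_legN; ring

theorem cv_legD_one_sub (x : S) : cv_legD (1 - x) = cv_legD x := by
  unfold cv_legD; ring

/-- `λ ↦ 1/λ`, homogeneous form. -/
theorem cv_legN_inv {x y : S} (h : x * y = 1) : cv_legN y * x ^ 6 = cv_legN x := by
  have h1 : (y ^ 2 - y + 1) * x ^ 2 = x ^ 2 - x + 1 := by
    linear_combination (x * y + 1 - x) * h
  unfold cv_legN
  calc 256 * (y ^ 2 - y + 1) ^ 3 * x ^ 6 = 256 * ((y ^ 2 - y + 1) * x ^ 2) ^ 3 := by ring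
    _ = 256 * (x ^ 2 - x + 1) ^ 3 := by rw [h1]

theorem cv_legD_inv {x y : S} (h : x * y = 1) : cv_legD y * x ^ 6 = cv_legD x := by
  have h1 : y * x = 1 := by rw [mul_comm]; exact h
  have h2 : (y - 1) * x = 1 - x := by linear_combination h1
  unfold cv_legD
  calc y ^ 2 * (y - 1) ^ 2 * x ^ 6 = (y * x) ^ 2 * ((y - 1) * x) ^ 2 * x ^ 2 := by ring
    _ = x ^ 2 * (x - 1) ^ 2 := by rw [h1, h2]; ring

/-- `j - 1728`. -/
theorem cv_legN_sub (x : S) :
    cv_legN x - 1728 * cv_legD x = 64 * ((x - 2) * (2 * x - 1) * (x + 1)) ^ 2 := by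
  unfold cv_legN cv_legD; ring

end Legendre

section Hesse

variable {S : Type*} [CommRing S]

/-- numerator of the Hesse `j`-function. -/
def cv_hesN (x : S) : S := 27 * x ^ 3 * (x ^ 3 + 8) ^ 3

/-- denominator of the Hesse `j`-function. -/
def cv_hesD (x : S) : S := (x ^ 3 - 1) ^ 3

theorem cv_hesN_mul {w : S} (hw : w ^ 3 = 1) (x : S) : cv_hesN (w * x) = cv_hesN x := by
  unfold cv_hesN
  rw [mul_pow, hw, one_mul]

theorem cv_hesD_mul {w : S} (hw : w ^ 3 = 1) (x : S) : cv_hesD (w * x) = cv_hesD x := by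
  unfold cv_hesD
  rw [mul_pow, hw, one_mul]

/-- `μ ↦ (μ + 2)/(μ - 1)`, homogeneous form. -/
theorem cv_hesN_moebius {x y : S} (h : y * (x - 1) = x + 2) :
    cv_hesN y * (x - 1) ^ 12 = 729 * cv_hesN x := by
  unfold cv_hesN
  calc 27 * y ^ 3 * (y ^ 3 + 8) ^ 3 * (x - 1) ^ 12
      = 27 * (y * (x - 1)) ^ 3 * ((y * (x - 1)) ^ 3 + 8 * (x - 1) ^ 3) ^ 3 := by ring
    _ = 729 * (27 * x ^ 3 * (x ^ 3 + 8) ^ 3) := by rw [h]; ring

theorem cv_hesD_moebius {x y : S} (h : y * (x - 1) = x + 2) :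
    cv_hesD y * (x - 1) ^ 12 = 729 * cv_hesD x := by
  unfold cv_hesD
  calc (y ^ 3 - 1) ^ 3 * (x - 1) ^ 12
      = ((y * (x - 1)) ^ 3 - (x - 1) ^ 3) ^ 3 * (x - 1) ^ 3 := by ring
    _ = 729 * (x ^ 3 - 1) ^ 3 := by rw [h]; ring

/-- `j - 1728`. -/
theorem cv_hesN_sub (x : S) :
    cv_hesN x - 1728 * cv_hesD x = 27 * (x ^ 6 - 20 * x ^ 3 - 8) ^ 2 := by
  unfold cv_hesN cv_hesD; ring

end Hesse

section Integrality

variable {O S : Type*} [CommRing O] [CommRing S] [Algebra O S]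

/-- `j` as an element of `O[j] ⊆ S`. -/
def cv_adjGen (j : S) : Algebra.adjoin O {j} := ⟨j, Algebra.subset_adjoin (Set.mem_singleton j)⟩

omit [Algebra O S] in
private lemma cv_isIntegral_of_subsingleton {A : Type*} [CommRing A] [Algebra A S]
    [Subsingleton A] (x : S) : IsIntegral A x := by
  refine ⟨1, monic_one, ?_⟩
  have h1 : (1 : S) = 0 := by
    rw [← map_one (algebraMap A S), Subsingleton.elim (1 : A) 0, map_zero]
  have : Subsingleton S := subsingleton_of_zero_eq_one h1.symm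
  exact Subsingleton.elim _ _

/-- **Legendre integrality**: if `2` is a unit of `O`, every solution `x` of
`256 (x² - x + 1)³ = j x² (x - 1)²` is integral over `O[j]`. -/
theorem cv_leg_isIntegral (h2 : IsUnit (2 : O)) {x j : S} (h : cv_legN x = j * cv_legD x) :
    IsIntegral (Algebra.adjoin O {j}) x := by
  rcases subsingleton_or_nontrivial (Algebra.adjoin O {j}) with hs | hn
  · exact cv_isIntegral_of_subsingleton x
  obtain ⟨v, hv⟩ : ∃ v : O, 256 * v = 1 := by
    have : IsUnit ((2 : O) ^ 8) := h2.pow 8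
    obtain ⟨u, hu⟩ := this
    refine ⟨↑u⁻¹, ?_⟩
    have : (256 : O) = 2 ^ 8 := by norm_num
    rw [this, ← hu, Units.mul_inv]
  let c : Algebra.adjoin O {j} := algebraMap O _ v * cv_adjGen j
  refine ⟨(X ^ 2 - X + 1) ^ 3 - C c * (X ^ 2 * (X - 1) ^ 2), by monicity!, ?_⟩
  have hc : algebraMap (Algebra.adjoin O {j}) S c = algebraMap O S v * j := by
    show ((algebraMap O (Algebra.adjoin O {j}) v * cv_adjGen j : Algebra.adjoin O {j}) : S) = _
    rfl
  have hv' : (256 : S) * algebraMap O S v = 1 := by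
    have := congrArg (algebraMap O S) hv
    rw [map_mul, map_one, map_ofNat] at this
    exact this
  rw [← aeval_def]
  simp only [map_sub, map_mul, map_pow, map_add, map_one, aeval_X, aeval_C, hc]
  unfold cv_legN cv_legD at h
  linear_combination (algebraMap O S v) * h - (x ^ 2 - x + 1) ^ 3 * hv'

/-- **Hesse integrality**: if `3` is a unit of `O`, every solution `x` of
`27 x³ (x³ + 8)³ = j (x³ - 1)³` is integral over `O[j]`. -/
theorem cv_hes_isIntegral (h3 : IsUnit (3 : O)) {x j : S} (h : cv_hesN x = j * cv_hesD x) :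
    IsIntegral (Algebra.adjoin O {j}) x := by
  rcases subsingleton_or_nontrivial (Algebra.adjoin O {j}) with hs | hn
  · exact cv_isIntegral_of_subsingleton x
  obtain ⟨v, hv⟩ : ∃ v : O, 27 * v = 1 := by
    have : IsUnit ((3 : O) ^ 3) := h3.pow 3
    obtain ⟨u, hu⟩ := this
    refine ⟨↑u⁻¹, ?_⟩
    have : (27 : O) = 3 ^ 3 := by norm_num
    rw [this, ← hu, Units.mul_inv]
  let c : Algebra.adjoin O {j} := algebraMap O _ v * cv_adjGen j
  refine ⟨X ^ 3 * (X ^ 3 + 8) ^ 3 - C c * (X ^ 3 - 1) ^ 3, by monicity!, ?_⟩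
  have hc : algebraMap (Algebra.adjoin O {j}) S c = algebraMap O S v * j := by
    show ((algebraMap O (Algebra.adjoin O {j}) v * cv_adjGen j : Algebra.adjoin O {j}) : S) = _
    rfl
  have hv' : (27 : S) * algebraMap O S v = 1 := by
    have := congrArg (algebraMap O S) hv
    rw [map_mul, map_one, map_ofNat] at this
    exact this
  rw [← aeval_def]
  simp only [map_sub, map_mul, map_pow, map_add, map_one, aeval_X, aeval_C, hc, map_ofNat]
  unfold cv_hesN cv_hesD at h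
  linear_combination (algebraMap O S v) * h - x ^ 3 * (x ^ 3 + 8) ^ 3 * hv'

end Integrality

section Field

variable {K : Type*} [Field K]

/-- The Legendre `j`-function on a field. -/
def cv_legJ (x : K) : K := cv_legN x / cv_legD x

/-- The Hesse `j`-function on a field. -/
def cv_hesJ (x : K) : K := cv_hesN x / cv_hesD x

theorem cv_legJ_one_sub (x : K) : cv_legJ (1 - x) = cv_legJ x := by
  unfold cv_legJ
  rw [cv_legN_one_sub, cv_legD_one_sub]

theorem cv_legJ_inv (x : K) : cv_legJ x⁻¹ = cv_legJ x := by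
  rcases eq_or_ne x 0 with rfl | hx
  · rw [inv_zero]
  unfold cv_legJ
  have h : x * x⁻¹ = 1 := mul_inv_cancel₀ hx
  rw [← cv_legN_inv h, ← cv_legD_inv h, mul_div_mul_right _ _ (pow_ne_zero 6 hx)]

theorem cv_legD_ne_zero {x : K} (h0 : x ≠ 0) (h1 : x ≠ 1) : cv_legD x ≠ 0 := by
  unfold cv_legD
  exact mul_ne_zero (pow_ne_zero 2 h0) (pow_ne_zero 2 (sub_ne_zero.2 h1))

theorem cv_legJ_sub {x : K} (h0 : x ≠ 0) (h1 : x ≠ 1) :
    cv_legJ x - 1728 = 64 * ((x - 2) * (2 * x - 1) * (x + 1)) ^ 2 / cv_legD x := by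
  unfold cv_legJ
  rw [← cv_legN_sub, sub_div, mul_div_assoc, div_self (cv_legD_ne_zero h0 h1), mul_one]

theorem cv_legJ_mul_legD {x : K} (h0 : x ≠ 0) (h1 : x ≠ 1) :
    cv_legN x = cv_legJ x * cv_legD x := by
  unfold cv_legJ
  rw [div_mul_cancel₀ _ (cv_legD_ne_zero h0 h1)]

theorem cv_hesJ_mul {w : K} (hw : w ^ 3 = 1) (x : K) : cv_hesJ (w * x) = cv_hesJ x := by
  unfold cv_hesJ
  rw [cv_hesN_mul hw, cv_hesD_mul hw]

theorem cv_hesJ_moebius {x : K} (h1 : x ≠ 1) (h3 : (3 : K) ≠ 0) :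
    cv_hesJ ((x + 2) / (x - 1)) = cv_hesJ x := by
  unfold cv_hesJ
  have hx : x - 1 ≠ 0 := sub_ne_zero.2 h1
  have h : (x + 2) / (x - 1) * (x - 1) = x + 2 := div_mul_cancel₀ _ hx
  have hN := cv_hesN_moebius h
  have hD := cv_hesD_moebius h
  have h729 : (729 : K) ≠ 0 := by
    have : (729 : K) = 3 ^ 6 := by norm_num
    rw [this]
    exact pow_ne_zero 6 h3
  rw [← mul_div_mul_right _ _ (pow_ne_zero 12 hx), hN, hD, mul_div_mul_left _ _ h729]

theorem cv_hesD_ne_zero {x : K} (h : x ^ 3 ≠ 1) : cv_hesD x ≠ 0 := by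
  unfold cv_hesD
  exact pow_ne_zero 3 (sub_ne_zero.2 h)

theorem cv_hesJ_sub {x : K} (h : x ^ 3 ≠ 1) :
    cv_hesJ x - 1728 = 27 * (x ^ 6 - 20 * x ^ 3 - 8) ^ 2 / cv_hesD x := by
  unfold cv_hesJ
  rw [← cv_hesN_sub, sub_div, mul_div_assoc, div_self (cv_hesD_ne_zero h), mul_one]

theorem cv_hesJ_mul_hesD {x : K} (h : x ^ 3 ≠ 1) : cv_hesN x = cv_hesJ x * cv_hesD x := by
  unfold cv_hesJ
  rw [div_mul_cancel₀ _ (cv_hesD_ne_zero h)]

end Field

end Fermat.Agent.JT3
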