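import Fermat.Agent.JT3.Cover.Identities

/-!
# Ramification of the Legendre and Hesse covers over `j = 0, 1728` (JT3 route (X); prefix `cv_`)

`A` a ring with a principal prime `(t)`, `B` a Dedekind domain over `A`, `P` a prime of `B` over
`(t)`.  If `t * d = c * g ^ n` in `B` with `c, d ∉ P` then `n ∣ e(P | A)` (`cv_ram_dvd`).

Applied (AKLB style: `B` the integral closure of `A` in a field `L ∋ λ`) to

* Legendre, `j = 0`: `j λ² (λ - 1)² = 256 (λ² - λ + 1)³`, so `3 ∣ e`;
* Legendre, `j = 1728`: `(j - 1728) λ² (λ - 1)² = 64 ((λ - 2)(2λ - 1)(λ + 1))²`, so `2 ∣ e`;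
* Hesse, `j = 0`: `j (μ³ - 1)³ = 27 (μ (μ³ + 8))³`, so `3 ∣ e`;
* Hesse, `j = 1728`: `(j - 1728) (μ³ - 1)³ = 27 (μ⁶ - 20 μ³ - 8)²`, so `2 ∣ e`.
-/

set_option autoImplicit false

namespace Fermat.Agent.JT3

open Ideal UniqueFactorizationMonoid

section Core

theorem cv_count_span_of_notMem {B : Type*} [CommRing B] [IsDedekindDomain B]
    (P : Ideal B) {d : B} (hd : d ∉ P) :
    (normalizedFactors (Ideal.span {d})).count P = 0 := by
  rw [Multiset.count_eq_zero]
  intro hmem
  have h1 : P ∣ Ideal.span {d} := dvd_of_mem_normalizedFactors hmem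
  have h2 : Ideal.span {d} ≤ P := Ideal.le_of_dvd h1
  exact hd (h2 (Ideal.mem_span_singleton_self d))

/-- **Core lemma**, exact form: if `t * d = c * g ^ n` in a Dedekind domain `B` with `c, d ∉ P`,
and `P` lies over the principal ideal `(t)` of `A`, then `e(P | A) = n * ord_P g`. -/
theorem cv_ram_eq {A B : Type*} [CommRing A] [CommRing B] [IsDedekindDomain B] [Algebra A B]
    (P : Ideal B) [P.IsPrime] (t : A) (hp : P.under A = Ideal.span {t})
    (ht : algebraMap A B t ≠ 0) (n : ℕ) (g c d : B) (hc : c ∉ P) (hd : d ∉ P)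
    (h : algebraMap A B t * d = c * g ^ n) :
    P.ramificationIdx A = n * (normalizedFactors (Ideal.span {g})).count P := by
  have hd0 : d ≠ 0 := fun h0 => hd (h0 ▸ P.zero_mem)
  have hc0 : c ≠ 0 := fun h0 => hc (h0 ▸ P.zero_mem)
  have hg0 : g ^ n ≠ 0 := by
    intro h0
    rw [h0, mul_zero] at h
    exact mul_ne_zero ht hd0 h
  have hmap : (P.under A).map (algebraMap A B) = Ideal.span {algebraMap A B t} := by
    rw [hp, Ideal.map_span, Set.image_singleton]
  have h0 : (P.under A).map (algebraMap A B) ≠ ⊥ := by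
    rw [hmap]
    simpa [Ideal.span_singleton_eq_bot] using ht
  have hs0 : Ideal.span {algebraMap A B t} ≠ ⊥ := by rwa [hmap] at h0
  have hsd : Ideal.span {d} ≠ ⊥ := by simpa [Ideal.span_singleton_eq_bot] using hd0
  have hsc : Ideal.span {c} ≠ ⊥ := by simpa [Ideal.span_singleton_eq_bot] using hc0
  have hsg : Ideal.span {g} ^ n ≠ ⊥ := by
    rw [Ideal.span_singleton_pow]
    simpa [Ideal.span_singleton_eq_bot] using hg0
  have hI : Ideal.span {algebraMap A B t} * Ideal.span {d}
      = Ideal.span {c} * Ideal.span {g} ^ n := by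
    rw [Ideal.span_singleton_pow, Ideal.span_singleton_mul_span_singleton,
      Ideal.span_singleton_mul_span_singleton, h]
  have hcount := congrArg (fun I => (normalizedFactors I).count P) hI
  beta_reduce at hcount
  rw [normalizedFactors_mul hs0 hsd, normalizedFactors_mul hsc hsg, Multiset.count_add,
    Multiset.count_add, cv_count_span_of_notMem P hd, cv_count_span_of_notMem P hc,
    normalizedFactors_pow, Multiset.count_nsmul, add_zero, zero_add] at hcount
  rw [IsDedekindDomain.ramificationIdx_eq_normalizedFactors_count (P.under A) P h0, hmap, hcount]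

/-- **Core lemma**, divisibility form. -/
theorem cv_ram_dvd {A B : Type*} [CommRing A] [CommRing B] [IsDedekindDomain B] [Algebra A B]
    (P : Ideal B) [P.IsPrime] (t : A) (hp : P.under A = Ideal.span {t})
    (ht : algebraMap A B t ≠ 0) (n : ℕ) (g c d : B) (hc : c ∉ P) (hd : d ∉ P)
    (h : algebraMap A B t * d = c * g ^ n) : n ∣ P.ramificationIdx A := by
  rw [cv_ram_eq P t hp ht n g c d hc hd h]
  exact dvd_mul_right _ _

theorem cv_notMem_of_isUnit {B : Type*} [CommRing B] (P : Ideal B) [P.IsPrime] {c : B}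
    (hc : IsUnit c) : c ∉ P := fun h => (inferInstance : P.IsPrime).ne_top (P.eq_top_of_isUnit_mem h hc)

/-- In a DVR `A` with uniformiser `t`, a nonzero prime of an integral extension domain lies
over `(t)`. -/
theorem cv_under_eq_span {A B : Type*} [CommRing A] [IsDomain A] [IsDiscreteValuationRing A]
    [CommRing B] [IsDomain B] [Algebra A B] [Algebra.IsIntegral A B]
    (P : Ideal B) [P.IsPrime] (hP : P ≠ ⊥) {t : A} (ht : Irreducible t) :
    P.under A = Ideal.span {t} := by
  have h1 : P.under A ≠ ⊥ := by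
    intro h
    exact hP (Ideal.eq_bot_of_comap_eq_bot h)
  have h2 : (P.under A).IsMaximal := (inferInstance : (P.under A).IsPrime).isMaximal h1
  rw [IsLocalRing.eq_maximalIdeal h2, ht.maximalIdeal_eq]

end Core

section Maps

variable {S T : Type*} [CommRing S] [CommRing T] (f : S →+* T)

theorem cv_map_legN (x : S) : f (cv_legN x) = cv_legN (f x) := by
  simp only [cv_legN, map_mul, map_pow, map_add, map_sub, map_one, map_ofNat]

theorem cv_map_legD (x : S) : f (cv_legD x) = cv_legD (f x) := by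
  simp only [cv_legD, map_mul, map_pow, map_sub, map_one]

theorem cv_map_hesN (x : S) : f (cv_hesN x) = cv_hesN (f x) := by
  simp only [cv_hesN, map_mul, map_pow, map_add, map_ofNat]

theorem cv_map_hesD (x : S) : f (cv_hesD x) = cv_hesD (f x) := by
  simp only [cv_hesD, map_pow, map_sub, map_one]

end Maps

section Relations

variable {L : Type*} [Field L]

theorem cv_leg_rel_inv {x j : L} (hx : x ≠ 0) (h : cv_legN x = j * cv_legD x) :
    cv_legN x⁻¹ = j * cv_legD x⁻¹ := by
  have hxy : x * x⁻¹ = 1 := mul_inv_cancel₀ hx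
  have hN := cv_legN_inv hxy
  have hD := cv_legD_inv hxy
  have h6 : x ^ 6 ≠ 0 := pow_ne_zero 6 hx
  apply mul_right_cancel₀ h6
  rw [hN, mul_assoc, hD, h]

theorem cv_leg_rel_one_sub {x j : L} (h : cv_legN x = j * cv_legD x) :
    cv_legN (1 - x) = j * cv_legD (1 - x) := by
  rw [cv_legN_one_sub, cv_legD_one_sub, h]

end Relations

section HesseW

open Polynomial

variable {O S : Type*} [CommRing O] [CommRing S] [Algebra O S]

/-- Hesse: `w = 9/(x³ - 1)` satisfies `27 (w + 9)(w + 1)³ = j w` (up to the factor `729`). -/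
theorem cv_hes_w_rel {x w j : S} (hw : (x ^ 3 - 1) * w = 9) (h : cv_hesN x = j * cv_hesD x) :
    729 * (27 * (w + 9) * (w + 1) ^ 3 - j * w) = 0 := by
  unfold cv_hesN cv_hesD at h
  have h1 : 27 * ((x ^ 3 - 1) * w + w) * ((x ^ 3 - 1) * w + 9 * w) ^ 3
      = 27 * x ^ 3 * (x ^ 3 + 8) ^ 3 * w ^ 4 := by ring
  have h2 : j * ((x ^ 3 - 1) * w) ^ 3 * w = j * (x ^ 3 - 1) ^ 3 * w ^ 4 := by ring
  rw [hw] at h1 h2
  rw [h] at h1
  linear_combination h1 - h2

/-- Hesse: `9/(x³ - 1)` is integral over `O[j]` when `3` is a unit. -/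
theorem cv_hes_isIntegral_w (h3 : IsUnit (3 : O)) {x w j : S} (hw : (x ^ 3 - 1) * w = 9)
    (h : cv_hesN x = j * cv_hesD x) : IsIntegral (Algebra.adjoin O {j}) w := by
  rcases subsingleton_or_nontrivial (Algebra.adjoin O {j}) with hs | hn
  · refine ⟨1, monic_one, ?_⟩
    have h1 : (1 : S) = 0 := by
      rw [← map_one (algebraMap (Algebra.adjoin O {j}) S),
        Subsingleton.elim (1 : Algebra.adjoin O {j}) 0, map_zero]
    have : Subsingleton S := subsingleton_of_zero_eq_one h1.symm
    exact Subsingleton.elim _ _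
  obtain ⟨v, hv⟩ : ∃ v : O, 27 * v = 1 := by
    have : IsUnit ((3 : O) ^ 3) := h3.pow 3
    obtain ⟨u, hu⟩ := this
    refine ⟨↑u⁻¹, ?_⟩
    have : (27 : O) = 3 ^ 3 := by norm_num
    rw [this, ← hu, Units.mul_inv]
  obtain ⟨u, hu⟩ : ∃ u : O, 729 * u = 1 := by
    have : IsUnit ((3 : O) ^ 6) := h3.pow 6
    obtain ⟨u, hu⟩ := this
    refine ⟨↑u⁻¹, ?_⟩
    have : (729 : O) = 3 ^ 6 := by norm_num
    rw [this, ← hu, Units.mul_inv]
  let c : Algebra.adjoin O {j} := algebraMap O _ v * cv_adjGen j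
  refine ⟨(X + 9) * (X + 1) ^ 3 - C c * X, by monicity!, ?_⟩
  have hc : algebraMap (Algebra.adjoin O {j}) S c = algebraMap O S v * j := by
    show ((algebraMap O (Algebra.adjoin O {j}) v * cv_adjGen j : Algebra.adjoin O {j}) : S) = _
    rfl
  have hv' : (27 : S) * algebraMap O S v = 1 := by
    have := congrArg (algebraMap O S) hv
    rw [map_mul, map_one, map_ofNat] at this
    exact this
  have hu' : (729 : S) * algebraMap O S u = 1 := by
    have := congrArg (algebraMap O S) hu
    rw [map_mul, map_one, map_ofNat] at this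
    exact this
  have H := cv_hes_w_rel hw h
  rw [← aeval_def]
  simp only [map_sub, map_mul, map_pow, map_add, map_one, aeval_X, aeval_C, hc, map_ofNat]
  linear_combination (algebraMap O S v * algebraMap O S u) * H
    - ((w + 9) * (w + 1) ^ 3) * hv'
    - (algebraMap O S v * (27 * (w + 9) * (w + 1) ^ 3 - j * w)) * hu'

end HesseW

section IntegralBase

variable {O S : Type*} [CommRing O] [CommRing S] [Algebra O S]

/-- integral over `O[a]` with `a` in the image of `O` means integral over `O`. -/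
theorem cv_isIntegral_of_adjoin_algebraMap (t : O) {x : S}
    (h : IsIntegral (Algebra.adjoin O {algebraMap O S t}) x) : IsIntegral O x := by
  have : Algebra.IsIntegral O (Algebra.adjoin O {algebraMap O S t}) := by
    apply Algebra.IsIntegral.adjoin
    intro y hy
    rw [Set.mem_singleton_iff] at hy
    rw [hy]
    exact isIntegral_algebraMap
  exact isIntegral_trans x h

end IntegralBase

section FieldIntegral

variable {K Ω : Type*} [Field K] [Field Ω] [Algebra K Ω]

/-- over a field `K ∋ j` of characteristic `≠ 2`, a solution `λ` of the Legendre relation is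
integral (= algebraic) over `K`; so `K(λ)/K` is finite. -/
theorem cv_leg_isIntegral_field (h2 : (2 : K) ≠ 0) {lam : Ω} {j : K}
    (hrel : cv_legN lam = algebraMap K Ω j * cv_legD lam) : IsIntegral K lam :=
  cv_isIntegral_of_adjoin_algebraMap j (cv_leg_isIntegral (IsUnit.mk0 _ h2) hrel)

/-- over a field `K ∋ j` of characteristic `≠ 3`, a solution `μ` of the Hesse relation is
integral (= algebraic) over `K`. -/
theorem cv_hes_isIntegral_field (h3 : (3 : K) ≠ 0) {mu : Ω} {j : K}
    (hrel : cv_hesN mu = algebraMap K Ω j * cv_hesD mu) : IsIntegral K mu :=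
  cv_isIntegral_of_adjoin_algebraMap j (cv_hes_isIntegral (IsUnit.mk0 _ h3) hrel)

theorem cv_leg_finiteDimensional_adjoin (h2 : (2 : K) ≠ 0) {lam : Ω} {j : K}
    (hrel : cv_legN lam = algebraMap K Ω j * cv_legD lam) :
    FiniteDimensional K (IntermediateField.adjoin K {lam}) :=
  IntermediateField.adjoin.finiteDimensional (cv_leg_isIntegral_field h2 hrel)

theorem cv_hes_finiteDimensional_adjoin (h3 : (3 : K) ≠ 0) {mu : Ω} {j : K}
    (hrel : cv_hesN mu = algebraMap K Ω j * cv_hesD mu) :
    FiniteDimensional K (IntermediateField.adjoin K {mu}) :=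
  IntermediateField.adjoin.finiteDimensional (cv_hes_isIntegral_field h3 hrel)

end FieldIntegral

section AKLB

variable {A L B : Type*} [CommRing A] [Field L] [Algebra A L] [CommRing B] [IsDedekindDomain B]
  [Algebra A B] [Algebra B L] [IsScalarTower A B L] [IsIntegralClosure B A L]

omit [IsDedekindDomain B] in
theorem cv_ofNat_ne_zero_of_isUnit {n : ℕ} [n.AtLeastTwo] (h : IsUnit (OfNat.ofNat n : A)) :
    (OfNat.ofNat n : L) ≠ 0 := by
  have h1 : IsUnit (algebraMap A L (OfNat.ofNat n)) := h.map _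
  rw [map_ofNat] at h1
  exact h1.ne_zero

omit [IsDedekindDomain B] [Algebra A B] [IsScalarTower A B L] in
/-- **Legendre**: `λ`, `1/λ`, `1/(λ - 1)` lie in the integral closure of `A` in `L` when
`256 (λ² - λ + 1)³ = j λ² (λ - 1)²` with `j ∈ A` and `2 ∈ Aˣ`. -/
theorem cv_leg_units (h2 : IsUnit (2 : A)) {lam : L} {j : A}
    (hrel : cv_legN lam = algebraMap A L j * cv_legD lam) :
    ∃ x y z : B, algebraMap B L x = lam ∧ x * y = 1 ∧ (x - 1) * z = 1 := by
  have h2L : (2 : L) ≠ 0 := cv_ofNat_ne_zero_of_isUnit (A := A) h2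
  have h256 : (256 : L) ≠ 0 := by
    have : (256 : L) = 2 ^ 8 := by norm_num
    rw [this]
    exact pow_ne_zero 8 h2L
  have hl0 : lam ≠ 0 := by
    rintro rfl
    apply h256
    have := hrel
    simp only [cv_legN, cv_legD] at this
    simpa using this
  have hl1 : lam ≠ 1 := by
    rintro rfl
    apply h256
    have := hrel
    simp only [cv_legN, cv_legD] at this
    simpa using this
  have hl1' : 1 - lam ≠ 0 := sub_ne_zero.2 (Ne.symm hl1)
  have hx : IsIntegral A lam := cv_isIntegral_of_adjoin_algebraMap j (cv_leg_isIntegral h2 hrel)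
  have hy : IsIntegral A lam⁻¹ :=
    cv_isIntegral_of_adjoin_algebraMap j (cv_leg_isIntegral h2 (cv_leg_rel_inv hl0 hrel))
  have hz' : IsIntegral A (1 - lam)⁻¹ :=
    cv_isIntegral_of_adjoin_algebraMap j
      (cv_leg_isIntegral h2 (cv_leg_rel_inv hl1' (cv_leg_rel_one_sub hrel)))
  have hz : IsIntegral A (-(1 - lam)⁻¹) := hz'.neg
  have hinj : Function.Injective (algebraMap B L) := IsIntegralClosure.algebraMap_injective B A L
  refine ⟨IsIntegralClosure.mk' B lam hx, IsIntegralClosure.mk' B lam⁻¹ hy,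
    IsIntegralClosure.mk' B (-(1 - lam)⁻¹) hz, IsIntegralClosure.algebraMap_mk' B lam hx, ?_, ?_⟩
  · apply hinj
    rw [map_mul, IsIntegralClosure.algebraMap_mk', IsIntegralClosure.algebraMap_mk', map_one,
      mul_inv_cancel₀ hl0]
  · apply hinj
    rw [map_mul, map_sub, IsIntegralClosure.algebraMap_mk', IsIntegralClosure.algebraMap_mk',
      map_one]
    field_simp
    ring

omit [IsDedekindDomain B] in
theorem cv_isUnit_ofNat_pow {n : ℕ} [n.AtLeastTwo] (h : IsUnit (OfNat.ofNat n : A)) (k : ℕ) :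
    IsUnit ((OfNat.ofNat n : B) ^ k) := by
  have h1 : IsUnit (algebraMap A B (OfNat.ofNat n)) := h.map _
  rw [map_ofNat] at h1
  exact h1.pow k

omit [IsDedekindDomain B] [IsIntegralClosure B A L] in
theorem cv_algebraMap_ne_zero {t : A} (ht : algebraMap A L t ≠ 0) : algebraMap A B t ≠ 0 := by
  intro h
  apply ht
  rw [IsScalarTower.algebraMap_apply A B L, h, map_zero]

/-- **Legendre cover over `j = 0`**: `3 ∣ e(P | A)` for every prime `P` of the integral closure
`B` of `A` in `L ∋ λ` lying over `(t)`, when `256 (λ² - λ + 1)³ = t λ² (λ - 1)²`. -/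
theorem cv_leg_ram_zero (h2 : IsUnit (2 : A)) {lam : L} {t : A} (ht : algebraMap A L t ≠ 0)
    (hrel : cv_legN lam = algebraMap A L t * cv_legD lam) (P : Ideal B) [P.IsPrime]
    (hp : P.under A = Ideal.span {t}) : 3 ∣ P.ramificationIdx A := by
  obtain ⟨x, y, z, hx, hxy, hxz⟩ := cv_leg_units (B := B) h2 hrel
  have hinj : Function.Injective (algebraMap B L) := IsIntegralClosure.algebraMap_injective B A L
  have hB : algebraMap A B t * cv_legD x = cv_legN x := by
    apply hinj
    rw [map_mul, cv_map_legD, cv_map_legN, hx, ← IsScalarTower.algebraMap_apply, hrel]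
  have hux : IsUnit x := IsUnit.of_mul_eq_one _ hxy
  have hux1 : IsUnit (x - 1) := IsUnit.of_mul_eq_one _ hxz
  have hd : IsUnit (cv_legD x) := (hux.pow 2).mul (hux1.pow 2)
  have hc : IsUnit (256 : B) := by
    have := cv_isUnit_ofNat_pow (B := B) h2 8
    norm_num at this
    exact this
  exact cv_ram_dvd P t hp (cv_algebraMap_ne_zero ht) 3 (x ^ 2 - x + 1) 256 (cv_legD x)
    (cv_notMem_of_isUnit P hc) (cv_notMem_of_isUnit P hd) hB

/-- **Legendre cover over `j = 1728`**: `2 ∣ e(P | A)` for every prime `P` of the integral closure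
`B` of `A` in `L ∋ λ` lying over `(t)`, when `256 (λ² - λ + 1)³ = (t + 1728) λ² (λ - 1)²`. -/
theorem cv_leg_ram_1728 (h2 : IsUnit (2 : A)) {lam : L} {t : A} (ht : algebraMap A L t ≠ 0)
    (hrel : cv_legN lam = (algebraMap A L t + 1728) * cv_legD lam) (P : Ideal B) [P.IsPrime]
    (hp : P.under A = Ideal.span {t}) : 2 ∣ P.ramificationIdx A := by
  have hrel' : cv_legN lam = algebraMap A L (t + 1728) * cv_legD lam := by
    rw [map_add, map_ofNat]
    exact hrel
  obtain ⟨x, y, z, hx, hxy, hxz⟩ := cv_leg_units (B := B) h2 hrel'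
  have hinj : Function.Injective (algebraMap B L) := IsIntegralClosure.algebraMap_injective B A L
  have hB : (algebraMap A B t + 1728) * cv_legD x = cv_legN x := by
    apply hinj
    rw [map_mul, map_add, map_ofNat, cv_map_legD, cv_map_legN, hx,
      ← IsScalarTower.algebraMap_apply, hrel]
  have hB' : algebraMap A B t * cv_legD x = 64 * ((x - 2) * (2 * x - 1) * (x + 1)) ^ 2 := by
    rw [← cv_legN_sub, ← hB]
    ring
  have hux : IsUnit x := IsUnit.of_mul_eq_one _ hxy
  have hux1 : IsUnit (x - 1) := IsUnit.of_mul_eq_one _ hxz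
  have hd : IsUnit (cv_legD x) := (hux.pow 2).mul (hux1.pow 2)
  have hc : IsUnit (64 : B) := by
    have := cv_isUnit_ofNat_pow (B := B) h2 6
    norm_num at this
    exact this
  exact cv_ram_dvd P t hp (cv_algebraMap_ne_zero ht) 2 ((x - 2) * (2 * x - 1) * (x + 1)) 64
    (cv_legD x) (cv_notMem_of_isUnit P hc) (cv_notMem_of_isUnit P hd) hB'

omit [IsDedekindDomain B] [Algebra A B] [IsScalarTower A B L] in
/-- **Hesse**: `μ` and `9/(μ³ - 1)` lie in the integral closure of `A` in `L` when
`27 μ³ (μ³ + 8)³ = j (μ³ - 1)³` with `j ∈ A` and `3 ∈ Aˣ`. -/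
theorem cv_hes_units (h3 : IsUnit (3 : A)) {mu : L} {j : A}
    (hrel : cv_hesN mu = algebraMap A L j * cv_hesD mu) :
    ∃ x w : B, algebraMap B L x = mu ∧ (x ^ 3 - 1) * w = 9 := by
  have h3L : (3 : L) ≠ 0 := cv_ofNat_ne_zero_of_isUnit (A := A) h3
  have hmu : mu ^ 3 - 1 ≠ 0 := by
    intro h0
    have h1 : mu ^ 3 = 1 := sub_eq_zero.1 h0
    have := hrel
    simp only [cv_hesN, cv_hesD, h1, sub_self] at this
    have h39 : (3 : L) ^ 9 = 0 := by
      linear_combination this
    exact h3L (pow_eq_zero_iff (by norm_num) |>.1 h39)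
  have hw0 : (mu ^ 3 - 1) * (9 * (mu ^ 3 - 1)⁻¹) = 9 := by
    field_simp
  have hx : IsIntegral A mu := cv_isIntegral_of_adjoin_algebraMap j (cv_hes_isIntegral h3 hrel)
  have hw : IsIntegral A (9 * (mu ^ 3 - 1)⁻¹) :=
    cv_isIntegral_of_adjoin_algebraMap j (cv_hes_isIntegral_w h3 hw0 hrel)
  have hinj : Function.Injective (algebraMap B L) := IsIntegralClosure.algebraMap_injective B A L
  refine ⟨IsIntegralClosure.mk' B mu hx, IsIntegralClosure.mk' B _ hw,
    IsIntegralClosure.algebraMap_mk' B mu hx, ?_⟩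
  apply hinj
  rw [map_mul, map_sub, map_pow, IsIntegralClosure.algebraMap_mk',
    IsIntegralClosure.algebraMap_mk', map_one, map_ofNat]
  exact hw0

/-- **Hesse cover over `j = 0`**: `3 ∣ e(P | A)` for every prime `P` of the integral closure
`B` of `A` in `L ∋ μ` lying over `(t)`, when `27 μ³ (μ³ + 8)³ = t (μ³ - 1)³`. -/
theorem cv_hes_ram_zero (h3 : IsUnit (3 : A)) {mu : L} {t : A} (ht : algebraMap A L t ≠ 0)
    (hrel : cv_hesN mu = algebraMap A L t * cv_hesD mu) (P : Ideal B) [P.IsPrime]
    (hp : P.under A = Ideal.span {t}) : 3 ∣ P.ramificationIdx A := by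
  obtain ⟨x, w, hx, hxw⟩ := cv_hes_units (B := B) h3 hrel
  have hinj : Function.Injective (algebraMap B L) := IsIntegralClosure.algebraMap_injective B A L
  have hB : algebraMap A B t * cv_hesD x = cv_hesN x := by
    apply hinj
    rw [map_mul, cv_map_hesD, cv_map_hesN, hx, ← IsScalarTower.algebraMap_apply, hrel]
  have h9 : IsUnit (9 : B) := by
    have := cv_isUnit_ofNat_pow (B := B) h3 2
    norm_num at this
    exact this
  have hus : IsUnit (x ^ 3 - 1) := by
    have : IsUnit ((x ^ 3 - 1) * w) := by rw [hxw]; exact h9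
    exact isUnit_of_mul_isUnit_left this
  have hd : IsUnit (cv_hesD x) := hus.pow 3
  have hc : IsUnit (27 : B) := by
    have := cv_isUnit_ofNat_pow (B := B) h3 3
    norm_num at this
    exact this
  have hB' : algebraMap A B t * cv_hesD x = 27 * (x * (x ^ 3 + 8)) ^ 3 := by
    rw [hB]
    unfold cv_hesN
    ring
  exact cv_ram_dvd P t hp (cv_algebraMap_ne_zero ht) 3 (x * (x ^ 3 + 8)) 27 (cv_hesD x)
    (cv_notMem_of_isUnit P hc) (cv_notMem_of_isUnit P hd) hB'

/-- **Hesse cover over `j = 1728`**: `2 ∣ e(P | A)` for every prime `P` of the integral closure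
`B` of `A` in `L ∋ μ` lying over `(t)`, when `27 μ³ (μ³ + 8)³ = (t + 1728) (μ³ - 1)³`. -/
theorem cv_hes_ram_1728 (h3 : IsUnit (3 : A)) {mu : L} {t : A} (ht : algebraMap A L t ≠ 0)
    (hrel : cv_hesN mu = (algebraMap A L t + 1728) * cv_hesD mu) (P : Ideal B) [P.IsPrime]
    (hp : P.under A = Ideal.span {t}) : 2 ∣ P.ramificationIdx A := by
  have hrel' : cv_hesN mu = algebraMap A L (t + 1728) * cv_hesD mu := by
    rw [map_add, map_ofNat]
    exact hrel
  obtain ⟨x, w, hx, hxw⟩ := cv_hes_units (B := B) h3 hrel'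
  have hinj : Function.Injective (algebraMap B L) := IsIntegralClosure.algebraMap_injective B A L
  have hB : (algebraMap A B t + 1728) * cv_hesD x = cv_hesN x := by
    apply hinj
    rw [map_mul, map_add, map_ofNat, cv_map_hesD, cv_map_hesN, hx,
      ← IsScalarTower.algebraMap_apply, hrel]
  have hB' : algebraMap A B t * cv_hesD x = 27 * (x ^ 6 - 20 * x ^ 3 - 8) ^ 2 := by
    rw [← cv_hesN_sub, ← hB]
    ring
  have h9 : IsUnit (9 : B) := by
    have := cv_isUnit_ofNat_pow (B := B) h3 2
    norm_num at this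
    exact this
  have hus : IsUnit (x ^ 3 - 1) := by
    have : IsUnit ((x ^ 3 - 1) * w) := by rw [hxw]; exact h9
    exact isUnit_of_mul_isUnit_left this
  have hd : IsUnit (cv_hesD x) := hus.pow 3
  have hc : IsUnit (27 : B) := by
    have := cv_isUnit_ofNat_pow (B := B) h3 3
    norm_num at this
    exact this
  exact cv_ram_dvd P t hp (cv_algebraMap_ne_zero ht) 2 (x ^ 6 - 20 * x ^ 3 - 8) 27 (cv_hesD x)
    (cv_notMem_of_isUnit P hc) (cv_notMem_of_isUnit P hd) hB'

end AKLB

section DVR

variable {A L B : Type*} [CommRing A] [IsDomain A] [IsDiscreteValuationRing A] [Field L]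
  [Algebra A L] [CommRing B] [IsDedekindDomain B]
  [Algebra A B] [Algebra B L] [IsScalarTower A B L] [IsIntegralClosure B A L]

/-- a nonzero prime of the integral closure of a DVR lies over `(t)`, `t` a uniformiser. -/
theorem cv_under_eq_span' {A B : Type*} (L : Type*) [CommRing A] [IsDomain A]
    [IsDiscreteValuationRing A] [Field L] [Algebra A L] [CommRing B] [IsDomain B] [Algebra A B]
    [Algebra B L] [IsScalarTower A B L] [IsIntegralClosure B A L] (P : Ideal B) [P.IsPrime]
    (hP : P ≠ ⊥) {t : A} (ht : Irreducible t) : P.under A = Ideal.span {t} := by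
  have : Algebra.IsIntegral A B := IsIntegralClosure.isIntegral_algebra A L
  exact cv_under_eq_span P hP ht

/-- `cv_leg_ram_zero` over a DVR with uniformiser `t`, for every nonzero prime. -/
theorem cv_leg_ram_zero' (h2 : IsUnit (2 : A)) {lam : L} {t : A} (hirr : Irreducible t)
    (ht : algebraMap A L t ≠ 0) (hrel : cv_legN lam = algebraMap A L t * cv_legD lam)
    (P : Ideal B) [P.IsPrime] (hP : P ≠ ⊥) : 3 ∣ P.ramificationIdx A :=
  cv_leg_ram_zero h2 ht hrel P (cv_under_eq_span' L P hP hirr)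

/-- `cv_leg_ram_1728` over a DVR with uniformiser `t`, for every nonzero prime. -/
theorem cv_leg_ram_1728' (h2 : IsUnit (2 : A)) {lam : L} {t : A} (hirr : Irreducible t)
    (ht : algebraMap A L t ≠ 0) (hrel : cv_legN lam = (algebraMap A L t + 1728) * cv_legD lam)
    (P : Ideal B) [P.IsPrime] (hP : P ≠ ⊥) : 2 ∣ P.ramificationIdx A :=
  cv_leg_ram_1728 h2 ht hrel P (cv_under_eq_span' L P hP hirr)

/-- `cv_hes_ram_zero` over a DVR with uniformiser `t`, for every nonzero prime. -/
theorem cv_hes_ram_zero' (h3 : IsUnit (3 : A)) {mu : L} {t : A} (hirr : Irreducible t)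
    (ht : algebraMap A L t ≠ 0) (hrel : cv_hesN mu = algebraMap A L t * cv_hesD mu)
    (P : Ideal B) [P.IsPrime] (hP : P ≠ ⊥) : 3 ∣ P.ramificationIdx A :=
  cv_hes_ram_zero h3 ht hrel P (cv_under_eq_span' L P hP hirr)

/-- `cv_hes_ram_1728` over a DVR with uniformiser `t`, for every nonzero prime. -/
theorem cv_hes_ram_1728' (h3 : IsUnit (3 : A)) {mu : L} {t : A} (hirr : Irreducible t)
    (ht : algebraMap A L t ≠ 0) (hrel : cv_hesN mu = (algebraMap A L t + 1728) * cv_hesD mu)
    (P : Ideal B) [P.IsPrime] (hP : P ≠ ⊥) : 2 ∣ P.ramificationIdx A :=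
  cv_hes_ram_1728 h3 ht hrel P (cv_under_eq_span' L P hP hirr)

/-- **Kummer**: if `w ^ n = t` (times units) then `n ∣ e`: the special case `c = d = 1` of
`cv_ram_dvd`, for a uniformiser `t` of the DVR `A`. -/
theorem cv_kummer_ram (n : ℕ) {w : B} {t : A} (hirr : Irreducible t)
    (ht : algebraMap A L t ≠ 0) (hw : algebraMap A B t = w ^ n)
    (P : Ideal B) [P.IsPrime] (hP : P ≠ ⊥) : n ∣ P.ramificationIdx A := by
  refine cv_ram_dvd P t (cv_under_eq_span' L P hP hirr) (cv_algebraMap_ne_zero ht) n w 1 1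
    (cv_notMem_of_isUnit P isUnit_one) (cv_notMem_of_isUnit P isUnit_one) ?_
  rw [mul_one, one_mul, hw]

end DVR

end Fermat.Agent.JT3
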