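import Fermat.Agent.JT3.Cover.Identities
import Fermat.Agent.JT3.Cover.FixedField
import Fermat.Agent.JT3.Cover.Subst

/-!
# The Legendre cover `K(λ) / K(j)` is Galois with group `S₃` (JT3 route (X); prefix `cv_`)

`j = 256 (λ² - λ + 1)³ / (λ² (λ - 1)²)`; the automorphisms `λ ↦ 1 - λ`, `λ ↦ 1/λ` generate a
group of order `6 = [K(λ) : K(j)]` (any field `K` with `2 ≠ 0`).
-/

set_option autoImplicit false

namespace Fermat.Agent.JT3

open RatFunc IntermediateField Module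

noncomputable section

/-- ring homomorphisms commute with the Legendre `j`-function. -/
theorem cv_map_legJ {L L' : Type*} [Field L] [Field L'] (φ : L →+* L') (x : L) :
    φ (cv_legJ x) = cv_legJ (φ x) := by
  unfold cv_legJ cv_legN cv_legD
  simp only [map_div₀, map_mul, map_pow, map_sub, map_add, map_one, map_ofNat]

variable (K : Type*) [Field K]

/-- The Legendre `j`-function as an element of `K(λ)`. -/
def cv_legj : RatFunc K := cv_legJ (X : RatFunc K)

/-- `σ : λ ↦ 1 - λ`. -/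
def cv_legσ : RatFunc K ≃ₐ[K] RatFunc K :=
  cv_moebEquiv (-1) 1 0 1 (by rw [mul_one, mul_zero, sub_zero]; exact neg_ne_zero.2 one_ne_zero)

/-- `τ : λ ↦ 1/λ`. -/
def cv_legτ : RatFunc K ≃ₐ[K] RatFunc K :=
  cv_moebEquiv 0 1 1 0 (by rw [mul_zero, mul_one, zero_sub]; exact neg_ne_zero.2 one_ne_zero)

theorem cv_legσ_X : cv_legσ K X = 1 - X := by
  unfold cv_legσ
  rw [cv_moebEquiv_X]
  unfold cv_moeb
  simp only [map_neg, map_one, map_zero, zero_mul, zero_add, div_one]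
  ring

theorem cv_legτ_X : cv_legτ K X = X⁻¹ := by
  unfold cv_legτ
  rw [cv_moebEquiv_X]
  unfold cv_moeb
  simp only [map_one, map_zero, zero_mul, zero_add, one_mul, add_zero, one_div]

theorem cv_legσ_j : cv_legσ K (cv_legj K) = cv_legj K := by
  unfold cv_legj
  rw [← AlgEquiv.coe_ringEquiv, ← RingEquiv.coe_toRingHom, cv_map_legJ]
  show cv_legJ (cv_legσ K X) = _
  rw [cv_legσ_X, cv_legJ_one_sub]

theorem cv_legτ_j : cv_legτ K (cv_legj K) = cv_legj K := by
  unfold cv_legj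
  rw [← AlgEquiv.coe_ringEquiv, ← RingEquiv.coe_toRingHom, cv_map_legJ]
  show cv_legJ (cv_legτ K X) = _
  rw [cv_legτ_X, cv_legJ_inv]

/-- the six automorphisms. -/
def cv_legS : Fin 6 → (RatFunc K ≃ₐ[K] RatFunc K) :=
  ![1, cv_legσ K, cv_legτ K, cv_legσ K * cv_legτ K, cv_legτ K * cv_legσ K,
    cv_legσ K * cv_legτ K * cv_legσ K]

theorem cv_legS_j (i : Fin 6) : cv_legS K i (cv_legj K) = cv_legj K := by
  fin_cases i
  · rfl
  · exact cv_legσ_j K
  · exact cv_legτ_j K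
  · show cv_legσ K (cv_legτ K (cv_legj K)) = _
    rw [cv_legτ_j, cv_legσ_j]
  · show cv_legτ K (cv_legσ K (cv_legj K)) = _
    rw [cv_legσ_j, cv_legτ_j]
  · show cv_legσ K (cv_legτ K (cv_legσ K (cv_legj K))) = _
    rw [cv_legσ_j, cv_legτ_j, cv_legσ_j]

/-- the matrices of the six automorphisms. -/
def cv_legM : Fin 6 → K × K × K × K :=
  ![(1, 0, 0, 1), (-1, 1, 0, 1), (0, 1, 1, 0), (0, 1, -1, 1), (1, -1, 1, 0), (-1, 0, -1, 1)]

theorem cv_legS_X (i : Fin 6) :
    cv_legS K i X = cv_moeb (cv_legM K i).1 (cv_legM K i).2.1 (cv_legM K i).2.2.1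
      (cv_legM K i).2.2.2 := by
  have hσ : cv_legσ K X = cv_moeb (-1) 1 0 1 := cv_moebEquiv_X _ _ _ _ _
  have hτ : cv_legτ K X = cv_moeb 0 1 1 0 := cv_moebEquiv_X _ _ _ _ _
  have hστ : cv_legσ K (cv_legτ K X) = cv_moeb 0 1 (-1) 1 := by
    rw [hτ]
    unfold cv_legσ
    rw [cv_moebEquiv_moeb]
    congr 1 <;> ring
  have hτσ : cv_legτ K (cv_legσ K X) = cv_moeb 1 (-1) 1 0 := by
    rw [hσ]
    unfold cv_legτ
    rw [cv_moebEquiv_moeb]
    congr 1 <;> ring
  fin_cases i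
  · exact (cv_moeb_scalar one_ne_zero).symm
  · exact hσ
  · exact hτ
  · exact hστ
  · exact hτσ
  · show cv_legσ K (cv_legτ K (cv_legσ K X)) = cv_moeb (-1) 0 (-1) 1
    rw [hτσ]
    unfold cv_legσ
    rw [cv_moebEquiv_moeb]
    congr 1 <;> ring

theorem cv_legM_den (i : Fin 6) : (cv_legM K i).2.2.1 ≠ 0 ∨ (cv_legM K i).2.2.2 ≠ 0 := by
  fin_cases i <;> simp [cv_legM]

theorem cv_legS_injective : Function.Injective (cv_legS K) := by
  intro i i' h
  have h1 := congrArg (fun φ : RatFunc K ≃ₐ[K] RatFunc K => φ X) h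
  simp only [cv_legS_X] at h1
  obtain ⟨e1, e2, e3⟩ := cv_moeb_eq (cv_legM_den K i) (cv_legM_den K i') h1
  fin_cases i <;> fin_cases i' <;> first | rfl | (exfalso; simp [cv_legM] at e1 e2 e3)

/-! ### The extension `K(λ) / K(j)` -/

theorem cv_X_ne_zero : (X : RatFunc K) ≠ 0 := RatFunc.X_ne_zero

theorem cv_X_ne_one : (X : RatFunc K) ≠ 1 := by
  intro h
  apply cv_X_ne_C (K := K)
  exact ⟨1, by rw [h, map_one]⟩

/-- `j` as an element of `K(j)`. -/
def cv_legjE : K⟮cv_legj K⟯ := ⟨cv_legj K, mem_adjoin_simple_self K _⟩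

/-- The polynomial `256 (T² - T + 1)³ - j T² (T - 1)²` over `K(j)`. -/
def cv_legP : Polynomial K⟮cv_legj K⟯ :=
  Polynomial.C 256 * (Polynomial.X ^ 2 - Polynomial.X + 1) ^ 3 -
    Polynomial.C (cv_legjE K) * (Polynomial.X ^ 2 * (Polynomial.X - 1) ^ 2)

theorem cv_legP_natDegree : (cv_legP K).natDegree ≤ 6 := by
  unfold cv_legP
  compute_degree

theorem cv_legP_ne_zero (h2 : (2 : K) ≠ 0) : cv_legP K ≠ 0 := by
  intro h
  have h1 : (cv_legP K).eval 0 = 256 := by
    unfold cv_legP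
    simp
  rw [h, Polynomial.eval_zero] at h1
  have h4 : (256 : RatFunc K) = 0 := by
    have := congrArg (algebraMap K⟮cv_legj K⟯ (RatFunc K)) h1
    rw [map_zero, map_ofNat] at this
    exact this.symm
  have h6 : (256 : K) = 0 := by
    apply (algebraMap K (RatFunc K)).injective
    rw [map_zero, map_ofNat]
    exact h4
  have h7 : (256 : K) = 2 ^ 8 := by norm_num
  rw [h7] at h6
  exact h2 (pow_eq_zero_iff (by norm_num) |>.1 h6)

theorem cv_legP_root : Polynomial.aeval (X : RatFunc K) (cv_legP K) = 0 := by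
  unfold cv_legP
  simp only [map_sub, map_mul, map_pow, map_add, map_one, Polynomial.aeval_X, Polynomial.aeval_C]
  have h := cv_legJ_mul_legD (cv_X_ne_zero K) (cv_X_ne_one K)
  unfold cv_legN cv_legD at h
  have h256 : (algebraMap K⟮cv_legj K⟯ (RatFunc K)) 256 = 256 := map_ofNat _ 256
  have hj : (algebraMap K⟮cv_legj K⟯ (RatFunc K)) (cv_legjE K) = cv_legJ (X : RatFunc K) := rfl
  rw [h256, hj]
  linear_combination h

variable {K}

/-- **`K(λ) / K(j)` is finite of degree `6`.** -/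
theorem cv_leg_finrank (h2 : (2 : K) ≠ 0) : finrank K⟮cv_legj K⟯ (RatFunc K) = 6 :=
  (cv_card_aut (cv_legj K) X adjoin_X (cv_legP K) (cv_legP_ne_zero K h2) (cv_legP_natDegree K)
    (cv_legP_root K) (cv_legS K) (cv_legS_injective K) (cv_legS_j K)).2

theorem cv_leg_finiteDimensional (h2 : (2 : K) ≠ 0) :
    FiniteDimensional K⟮cv_legj K⟯ (RatFunc K) :=
  cv_finiteDimensional (cv_legj K) X adjoin_X (cv_legP K) (cv_legP_ne_zero K h2) (cv_legP_root K)

/-- **`K(λ) / K(j)` is Galois.** -/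
theorem cv_leg_isGalois (h2 : (2 : K) ≠ 0) : IsGalois K⟮cv_legj K⟯ (RatFunc K) :=
  cv_isGalois (cv_legj K) X adjoin_X (cv_legP K) (cv_legP_ne_zero K h2) (cv_legP_natDegree K)
    (cv_legP_root K) (cv_legS K) (cv_legS_injective K) (cv_legS_j K)

theorem cv_leg_card_aut (h2 : (2 : K) ≠ 0) :
    Nat.card (RatFunc K ≃ₐ[K⟮cv_legj K⟯] RatFunc K) = 6 :=
  (cv_card_aut (cv_legj K) X adjoin_X (cv_legP K) (cv_legP_ne_zero K h2) (cv_legP_natDegree K)
    (cv_legP_root K) (cv_legS K) (cv_legS_injective K) (cv_legS_j K)).1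

/-- every automorphism of `K(λ)` over `K(j)` is one of the six. -/
theorem cv_leg_aut_exists (h2 : (2 : K) ≠ 0) (g : RatFunc K ≃ₐ[K⟮cv_legj K⟯] RatFunc K) :
    ∃ i, ∀ y, g y = cv_legS K i y :=
  cv_aut_exists (cv_legj K) X adjoin_X (cv_legP K) (cv_legP_ne_zero K h2) (cv_legP_natDegree K)
    (cv_legP_root K) (cv_legS K) (cv_legS_injective K) (cv_legS_j K) g

/-- **the invariants of `⟨σ, τ⟩` are `K(j)`.** -/
theorem cv_leg_mem_of_fixed (h2 : (2 : K) ≠ 0) (y : RatFunc K) (hσ : cv_legσ K y = y)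
    (hτ : cv_legτ K y = y) : y ∈ K⟮cv_legj K⟯ := by
  refine cv_mem_adjoin_of_fixed (cv_legj K) X adjoin_X (cv_legP K) (cv_legP_ne_zero K h2)
    (cv_legP_natDegree K) (cv_legP_root K) (cv_legS K) (cv_legS_injective K) (cv_legS_j K) y ?_
  intro i
  fin_cases i
  · rfl
  · exact hσ
  · exact hτ
  · show cv_legσ K (cv_legτ K y) = y
    rw [hτ, hσ]
  · show cv_legτ K (cv_legσ K y) = y
    rw [hσ, hτ]
  · show cv_legσ K (cv_legτ K (cv_legσ K y)) = y
    rw [hσ, hτ, hσ]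

/-- the group is not commutative. -/
theorem cv_leg_not_comm : cv_legσ K * cv_legτ K ≠ cv_legτ K * cv_legσ K := by
  intro h
  have h1 : cv_legS K 3 = cv_legS K 4 := h
  have := cv_legS_injective K h1
  exact absurd this (by decide)

end

end Fermat.Agent.JT3
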